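/-
Project S36 (Carayol), cell [ABEL3-TOWER] (helper11), part 1: A HAND-MADE `ℤ`-VALUED ORDER FUNCTION
for a valuation subring `V` of a field `E` with a uniformiser `z` (`𝔪(V) = z V`) and the
archimedean property (`s36wa_Arch V`, `S36/Abel3/WA3.lean`).  Prefix `s36at_`.

* `s36at_Unif V z`      : `z ≠ 0`, `z ∈ 𝔪(V)`, `𝔪(V) ⊆ z V`;
* `s36at_dec`           : every `x ≠ 0` is `z ^ n` times a unit of `V`;
* `s36at_ord V z`       : `x = z ^ n · unit ↦ n` (`0 ↦ 0`);
* `s36at_isOrd`         : `s36a_Ord V (s36at_ord V z)` (helper1's interface of `S36/Abel3/Vert.lean`);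
* `s36at_ord_eq_iff`, `s36at_ord_self`, `s36at_mem_iff`, `s36at_mem_nonunits_iff`,
  `s36at_ord_eq_of_unif` (independence of the uniformiser);
* `s36at_arch_of_over`  : a valuation subring over a DVR `R` (`ssm_tw_Over K R V`, `E / K` finite
  separable) is archimedean;
* `s36at_not_le`        : two distinct archimedean valuation subrings `≠ ⊤` are incomparable.
-/
import Mathlib
import Fermat.Agent.S36.Abel3.Vert
import Fermat.Agent.SS.Model.TwoValW

set_option autoImplicit false
set_option linter.unusedSectionVars false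
set_option linter.unusedVariables false
set_option linter.style.haveILetI false

open Fermat.Agent.JT3 Fermat.Agent.SS IsLocalRing

namespace Fermat.Agent.S36

section Unif

variable {E : Type*} [Field E]

/-- `z` is a uniformiser of the valuation subring `V`. -/
structure s36at_Unif (V : ValuationSubring E) (z : E) : Prop where
  ne_zero : z ≠ 0
  mem : z ∈ V.nonunits
  gen : ∀ a : E, a ∈ V.nonunits → ∃ b : E, b ∈ V ∧ a = z * b

theorem s36at_val_lt_one {V : ValuationSubring E} {z : E} (hU : s36at_Unif V z) :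
    V.valuation z < 1 := V.mem_nonunits_iff.1 hU.mem

theorem s36at_val_ne_zero {V : ValuationSubring E} {z : E} (hU : s36at_Unif V z) :
    V.valuation z ≠ 0 := (Valuation.ne_zero_iff _).2 hU.ne_zero

/-- a power of a nonunit with valuation `1` is the trivial power. -/
theorem s36at_zpow_eq_one {V : ValuationSubring E} {z : E} (hz0 : z ≠ 0)
    (hz : V.valuation z < 1) {j : ℤ} (h : V.valuation (z ^ j) = 1) : j = 0 := by
  set t : V.ValueGroup := V.valuation z with ht
  have ht0 : t ≠ 0 := (Valuation.ne_zero_iff _).2 hz0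
  rw [map_zpow₀] at h
  by_contra hne
  rcases lt_or_gt_of_ne hne with hlt | hgt
  · obtain ⟨n, hn⟩ := Int.eq_ofNat_of_zero_le (by omega : 0 ≤ -j)
    have hn0 : n ≠ 0 := by omega
    have h5 : t ^ n < 1 := pow_lt_one₀ zero_le hz hn0
    have h6 : t ^ n = 1 := by
      have : t ^ (-j) = 1 := by rw [zpow_neg, h, inv_one]
      rw [hn, zpow_natCast] at this
      exact this
    rw [h6] at h5
    exact lt_irrefl _ h5
  · obtain ⟨n, hn⟩ := Int.eq_ofNat_of_zero_le (by omega : 0 ≤ j)
    have hn0 : n ≠ 0 := by omega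
    have h5 : t ^ n < 1 := pow_lt_one₀ zero_le hz hn0
    rw [hn, zpow_natCast] at h
    rw [h] at h5
    exact lt_irrefl _ h5

/-- an element of `V` which is not a nonunit has valuation `1`. -/
theorem s36at_val_eq_one {V : ValuationSubring E} {b : E} (hb : b ∈ V) (hn : b ∉ V.nonunits) :
    V.valuation b = 1 := by
  have h1 : V.valuation b ≤ 1 := (V.valuation_le_one_iff b).2 hb
  have h2 : ¬ V.valuation b < 1 := fun h => hn (V.mem_nonunits_iff.2 h)
  exact le_antisymm h1 (not_lt.1 h2)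

/-- **decomposition**: every nonzero element is a power of the uniformiser times a unit. -/
theorem s36at_dec {V : ValuationSubring E} {z : E} (hU : s36at_Unif V z) (harch : s36wa_Arch V)
    (x : E) (hx : x ≠ 0) : ∃ j : ℤ, V.valuation (x * z ^ j) = 1 := by
  have key : ∀ y : E, y ∈ V → y ≠ 0 → ∃ n : ℕ, V.valuation (y * (z ^ n)⁻¹) = 1 := by
    intro y hy hy0
    -- `y ∉ z ^ k V` for some `k`
    obtain ⟨k, hk⟩ := harch z hU.mem hU.ne_zero y⁻¹
    have hbound : ¬ ∃ b : E, b ∈ V ∧ y = z ^ k * b := by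
      rintro ⟨b, hb, hyb⟩
      have hb0 : b ≠ 0 := by
        rintro rfl
        rw [mul_zero] at hyb
        exact hy0 hyb
      have h1 : z ^ k * y⁻¹ = b⁻¹ := by
        rw [hyb, mul_inv, ← mul_assoc, mul_inv_cancel₀ (pow_ne_zero k hU.ne_zero), one_mul]
      rw [h1] at hk
      have h2 : V.valuation b⁻¹ < 1 := V.mem_nonunits_iff.1 hk
      have h3 : V.valuation b ≤ 1 := (V.valuation_le_one_iff b).2 hb
      rw [map_inv₀] at h2
      have h4 : V.valuation b ≠ 0 := (Valuation.ne_zero_iff _).2 hb0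
      have h5 : 1 < V.valuation b := by
        have := (inv_lt_one₀ (zero_lt_iff.2 h4)).1 h2
        exact this
      exact absurd h3 (not_le.2 h5)
    -- the least `n` with `y ∉ z ^ (n+1) V`
    have hex : ∃ n : ℕ, ¬ ∃ b : E, b ∈ V ∧ y = z ^ (n + 1) * b := by
      refine ⟨k, ?_⟩
      rintro ⟨b, hb, hyb⟩
      apply hbound
      refine ⟨z * b, V.mul_mem _ _ (V.nonunits_subset hU.mem) hb, ?_⟩
      rw [hyb, pow_succ]
      ring
    classical
    set n := Nat.find hex with hn
    have hn1 : ¬ ∃ b : E, b ∈ V ∧ y = z ^ (n + 1) * b := Nat.find_spec hex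
    have hn2 : ∃ b : E, b ∈ V ∧ y = z ^ n * b := by
      rcases Nat.eq_zero_or_pos n with h0 | hpos
      · refine ⟨y, hy, ?_⟩
        rw [h0, pow_zero, one_mul]
      · have hlt : n - 1 < n := by omega
        have := Nat.find_min hex hlt
        push Not at this
        obtain ⟨b, hb, hyb⟩ := this
        refine ⟨b, hb, ?_⟩
        rw [hyb]
        congr 2
        omega
    obtain ⟨b, hb, hyb⟩ := hn2
    have hbn : b ∉ V.nonunits := by
      intro hbm
      obtain ⟨b', hb', hbb'⟩ := hU.gen b hbm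
      apply hn1
      refine ⟨b', hb', ?_⟩
      rw [hyb, hbb', pow_succ]
      ring
    refine ⟨n, ?_⟩
    have h3 : y * (z ^ n)⁻¹ = b := by
      rw [hyb, mul_comm (z ^ n) b, mul_assoc, mul_inv_cancel₀ (pow_ne_zero n hU.ne_zero), mul_one]
    rw [h3]
    exact s36at_val_eq_one hb hbn
  rcases V.mem_or_inv_mem x with h | h
  · obtain ⟨n, hn⟩ := key x h hx
    refine ⟨-(n : ℤ), ?_⟩
    rwa [zpow_neg, zpow_natCast]
  · obtain ⟨n, hn⟩ := key x⁻¹ h (inv_ne_zero hx)
    refine ⟨(n : ℤ), ?_⟩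
    rw [zpow_natCast]
    have h3 : x * z ^ n = (x⁻¹ * (z ^ n)⁻¹)⁻¹ := by
      rw [mul_inv, inv_inv, inv_inv]
    rw [h3, map_inv₀, hn, inv_one]

open Classical in
/-- the order function of `V` with respect to the uniformiser `z`: `z ^ n · unit ↦ n`, `0 ↦ 0`. -/
noncomputable def s36at_ord (V : ValuationSubring E) (z : E) (x : E) : ℤ :=
  if h : ∃ j : ℤ, V.valuation (x * z ^ j) = 1 then - Classical.choose h else 0

theorem s36at_ord_zero (V : ValuationSubring E) (z : E) : s36at_ord V z 0 = 0 := by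
  unfold s36at_ord
  rw [dif_neg]
  rintro ⟨j, hj⟩
  rw [zero_mul, map_zero] at hj
  exact zero_ne_one hj

variable {V : ValuationSubring E} {z : E}

/-- characterisation of the order. -/
theorem s36at_ord_eq_of_val (hU : s36at_Unif V z) {x : E} {n : ℤ}
    (h : V.valuation (x * z ^ (-n)) = 1) : s36at_ord V z x = n := by
  have hex : ∃ j : ℤ, V.valuation (x * z ^ j) = 1 := ⟨-n, h⟩
  unfold s36at_ord
  rw [dif_pos hex]
  have h1 := Classical.choose_spec hex
  set j := Classical.choose hex with hj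
  have hx0 : x ≠ 0 := by
    rintro rfl
    rw [zero_mul, map_zero] at h
    exact zero_ne_one h
  -- `z ^ (j + n)` has valuation 1
  have h2 : V.valuation (z ^ (j + n)) = 1 := by
    have e : z ^ (j + n) = (x * z ^ j) * (x * z ^ (-n))⁻¹ := by
      rw [zpow_add₀ hU.ne_zero, zpow_neg, mul_inv, inv_inv]
      field_simp
    rw [e, map_mul, map_inv₀, h1, h, inv_one, mul_one]
  have h3 := s36at_zpow_eq_one hU.ne_zero (s36at_val_lt_one hU) h2
  omega

theorem s36at_ord_spec (hU : s36at_Unif V z) (harch : s36wa_Arch V) {x : E} (hx : x ≠ 0) :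
    V.valuation (x * z ^ (-(s36at_ord V z x))) = 1 := by
  obtain ⟨j, hj⟩ := s36at_dec hU harch x hx
  have h1 : s36at_ord V z x = -j := s36at_ord_eq_of_val hU (n := -j) (by rwa [neg_neg])
  rw [h1, neg_neg]
  exact hj

theorem s36at_ord_eq_iff (hU : s36at_Unif V z) (harch : s36wa_Arch V) {x : E} (hx : x ≠ 0)
    (n : ℤ) : s36at_ord V z x = n ↔ V.valuation (x * z ^ (-n)) = 1 := by
  constructor
  · rintro rfl
    exact s36at_ord_spec hU harch hx
  · exact s36at_ord_eq_of_val hU

/-- **`s36at_ord V z` is an order function for `V`** (helper1's `s36a_Ord`). -/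
theorem s36at_isOrd (hU : s36at_Unif V z) (harch : s36wa_Arch V) :
    s36a_Ord V (s36at_ord V z) where
  mul := by
    intro x y hx hy
    apply s36at_ord_eq_of_val hU
    have h1 := s36at_ord_spec hU harch hx
    have h2 := s36at_ord_spec hU harch hy
    have e : x * y * z ^ (-(s36at_ord V z x + s36at_ord V z y)) =
        (x * z ^ (-(s36at_ord V z x))) * (y * z ^ (-(s36at_ord V z y))) := by
      rw [neg_add, zpow_add₀ hU.ne_zero]
      ring
    rw [e, map_mul, h1, h2, mul_one]
  unit := by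
    intro x hx
    rw [s36at_ord_eq_iff hU harch hx, neg_zero, zpow_zero, mul_one]

theorem s36at_ord_self (hU : s36at_Unif V z) : s36at_ord V z z = 1 := by
  apply s36at_ord_eq_of_val hU
  rw [zpow_neg, zpow_one, mul_inv_cancel₀ hU.ne_zero, map_one]

theorem s36at_ord_of_unit (hU : s36at_Unif V z) {x : E} (hx : V.valuation x = 1) :
    s36at_ord V z x = 0 := by
  apply s36at_ord_eq_of_val hU
  rw [neg_zero, zpow_zero, mul_one]
  exact hx

/-- the valuation of `x` is that of `z ^ ord x`. -/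
theorem s36at_val_eq (hU : s36at_Unif V z) (harch : s36wa_Arch V) {x : E} (hx : x ≠ 0) :
    V.valuation x = V.valuation z ^ (s36at_ord V z x) := by
  have h1 := s36at_ord_spec hU harch hx
  rw [map_mul, map_zpow₀, zpow_neg] at h1
  have h0 : V.valuation z ^ (s36at_ord V z x) ≠ 0 := zpow_ne_zero _ (s36at_val_ne_zero hU)
  have := eq_inv_of_mul_eq_one_left h1
  rw [inv_inv] at this
  exact this

/-- `x ∈ 𝔪(V) ↔ 0 < ord x` (`x ≠ 0`). -/
theorem s36at_mem_nonunits_iff (hU : s36at_Unif V z) (harch : s36wa_Arch V) {x : E} (hx : x ≠ 0) :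
    x ∈ V.nonunits ↔ 0 < s36at_ord V z x := by
  rw [V.mem_nonunits_iff, s36at_val_eq hU harch hx]
  set t := V.valuation z with ht
  have ht1 : t < 1 := s36at_val_lt_one hU
  have ht0 : t ≠ 0 := s36at_val_ne_zero hU
  set n := s36at_ord V z x with hn
  constructor
  · intro h
    by_contra hle
    push Not at hle
    obtain ⟨k, hk⟩ := Int.eq_ofNat_of_zero_le (by omega : 0 ≤ -n)
    have h1 : t ^ n = (t ^ k)⁻¹ := by
      have : n = -(k : ℤ) := by omega
      rw [this, zpow_neg, zpow_natCast]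
    rw [h1] at h
    have h2 : t ^ k ≤ 1 := pow_le_one₀ zero_le ht1.le
    have h3 : t ^ k ≠ 0 := pow_ne_zero _ ht0
    have h4 : 1 ≤ (t ^ k)⁻¹ := (one_le_inv₀ (zero_lt_iff.2 h3)).2 h2
    exact absurd h (not_lt.2 h4)
  · intro h
    obtain ⟨k, hk⟩ := Int.eq_ofNat_of_zero_le h.le
    rw [hk, zpow_natCast]
    exact pow_lt_one₀ zero_le ht1 (by omega)

/-- `x ∈ V ↔ 0 ≤ ord x` (`x ≠ 0`). -/
theorem s36at_mem_iff (hU : s36at_Unif V z) (harch : s36wa_Arch V) {x : E} (hx : x ≠ 0) :
    x ∈ V ↔ 0 ≤ s36at_ord V z x := by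
  have ho := s36at_isOrd hU harch
  constructor
  · intro h
    by_contra hlt
    push Not at hlt
    have h1 : 0 < s36at_ord V z x⁻¹ := by rw [ho.inv hx]; omega
    have h2 := (s36at_mem_nonunits_iff hU harch (inv_ne_zero hx)).2 h1
    have h3 : V.valuation x⁻¹ < 1 := V.mem_nonunits_iff.1 h2
    have h4 : V.valuation x ≤ 1 := (V.valuation_le_one_iff x).2 h
    rw [map_inv₀] at h3
    have h5 : V.valuation x ≠ 0 := (Valuation.ne_zero_iff _).2 hx
    have h6 : 1 < V.valuation x := (inv_lt_one₀ (zero_lt_iff.2 h5)).1 h3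
    exact absurd h4 (not_le.2 h6)
  · intro h
    rcases h.lt_or_eq with h1 | h1
    · exact V.nonunits_subset ((s36at_mem_nonunits_iff hU harch hx).2 h1)
    · have := (ho.unit x hx).1 h1.symm
      exact (V.valuation_le_one_iff x).1 this.le

/-- independence of the uniformiser. -/
theorem s36at_ord_eq_of_unif {z' : E} (hU : s36at_Unif V z) (hU' : s36at_Unif V z')
    (harch : s36wa_Arch V) (x : E) : s36at_ord V z' x = s36at_ord V z x := by
  by_cases hx : x = 0
  · rw [hx, s36at_ord_zero, s36at_ord_zero]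
  have ho := s36at_isOrd hU harch
  -- `ord_z z' = 1`
  have h1 : s36at_ord V z z' = 1 := by
    have hpos := (s36at_mem_nonunits_iff hU harch hU'.ne_zero).1 hU'.mem
    obtain ⟨b, hb, hzb⟩ := hU'.gen z hU.mem
    have hb0 : b ≠ 0 := by
      rintro rfl
      rw [mul_zero] at hzb
      exact hU.ne_zero hzb
    have h2 : s36at_ord V z (z' * b) = s36at_ord V z z' + s36at_ord V z b :=
      ho.mul _ _ hU'.ne_zero hb0
    rw [← hzb] at h2
    rw [s36at_ord_self hU] at h2
    have h3 := (s36at_mem_iff hU harch hb0).1 hb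
    omega
  apply s36at_ord_eq_of_val hU'
  -- `x * z' ^ (-n)` with `n = ord_z x` is a unit
  have hz'n : x * z' ^ (-(s36at_ord V z x)) ≠ 0 := mul_ne_zero hx (zpow_ne_zero _ hU'.ne_zero)
  rw [← ho.unit _ hz'n, ho.mul _ _ hx (zpow_ne_zero _ hU'.ne_zero), ho.zpow hU'.ne_zero, h1]
  ring

end Unif

section Incomparable

variable {E : Type*} [Field E]

/-- two archimedean valuation subrings, the bigger one `≠ ⊤`, which are comparable are equal. -/
theorem s36at_le_of_le {V V' : ValuationSubring E} (harch : s36wa_Arch V) (hle : V ≤ V')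
    {z' : E} (hz'0 : z' ≠ 0) (hz' : z' ∈ V'.nonunits) : V' ≤ V := by
  intro x hx
  by_contra hxV
  have hx0 : x ≠ 0 := by
    rintro rfl
    exact hxV V.zero_mem
  have hxi : x⁻¹ ∈ V.nonunits := by
    rw [ssm_tw_nonunits_iff]
    refine ⟨(V.mem_or_inv_mem x).resolve_left hxV, Or.inr ?_⟩
    rwa [inv_inv]
  obtain ⟨k, hk⟩ := harch x⁻¹ hxi (inv_ne_zero hx0) z'⁻¹
  have h1 : x⁻¹ ^ k * z'⁻¹ ∈ V' := hle (V.nonunits_subset hk)
  have h2 : z'⁻¹ ∈ V' := by
    have e : z'⁻¹ = x ^ k * (x⁻¹ ^ k * z'⁻¹) := by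
      rw [← mul_assoc, inv_pow, mul_inv_cancel₀ (pow_ne_zero k hx0), one_mul]
    rw [e]
    exact V'.mul_mem _ _ (V'.pow_mem hx k) h1
  rw [ssm_tw_nonunits_iff] at hz'
  rcases hz'.2 with h | h
  · exact hz'0 h
  · exact h h2

/-- two DISTINCT archimedean valuation subrings `≠ ⊤` are incomparable. -/
theorem s36at_not_le {V V' : ValuationSubring E} (harch : s36wa_Arch V) (hne : V ≠ V')
    {z' : E} (hz'0 : z' ≠ 0) (hz' : z' ∈ V'.nonunits) : ¬ V ≤ V' := fun hle =>
  hne (le_antisymm hle (s36at_le_of_le harch hle hz'0 hz'))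

end Incomparable

section Over

variable {K : Type*} {E : Type*} [Field K] [Field E] [Algebra K E] [FiniteDimensional K E]
  [Algebra.IsSeparable K E]
  {R : Type*} [CommRing R] [IsDomain R] [IsDiscreteValuationRing R] [Algebra R K]
  [IsFractionRing R K] [Algebra R E] [IsScalarTower R K E]

include K in
/-- **a valuation subring over a DVR (in a finite separable extension) is archimedean.** -/
theorem s36at_arch_of_over {V : ValuationSubring E} (hV : ssm_tw_Over K R V) : s36wa_Arch V := by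
  obtain ⟨hD, hF, -, -, -⟩ := ssm_tw_inst K (E := E) R
  haveI := hD
  haveI := hF
  set P := ssm_tw_centre K R V hV with hP
  haveI hPmax : P.IsMaximal := ssm_tw_centre_isMaximal hV
  have hPprime : P.IsPrime := hPmax.isPrime
  -- `P ^ k` is `P`-primary
  have hprim : ∀ (k : ℕ) (t x : ↥(integralClosure R E)), t ∉ P → t * x ∈ P ^ k → x ∈ P ^ k := by
    intro k t x ht htx
    have h1 : Ideal.span {t} ⊔ P = ⊤ := by
      obtain ⟨y, i, hi, hyi⟩ := hPmax.exists_inv ht
      rw [Ideal.eq_top_iff_one, ← hyi]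
      exact Submodule.add_mem_sup (Ideal.mem_span_singleton'.2 ⟨y, rfl⟩) hi
    have h2 : Ideal.span {t} ⊔ P ^ k = ⊤ :=
      Ideal.isCoprime_iff_sup_eq.1 ((Ideal.isCoprime_iff_sup_eq.2 h1).pow_right)
    have h3 : (1 : ↥(integralClosure R E)) ∈ Ideal.span {t} ⊔ P ^ k := by
      rw [h2]; exact Submodule.mem_top
    obtain ⟨a, ha, p, hp, hap⟩ := Submodule.mem_sup.1 h3
    obtain ⟨c, rfl⟩ := Ideal.mem_span_singleton'.1 ha
    have e : x = c * (t * x) + p * x := by
      have h := congrArg (fun u => u * x) hap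
      simp only [one_mul] at h
      calc x = (c * t + p) * x := h.symm
        _ = c * (t * x) + p * x := by ring
    rw [e]
    exact (P ^ k).add_mem ((P ^ k).mul_mem_left c htx) ((P ^ k).mul_mem_right x hp)
  intro w hw hw0 y
  by_cases hy : y ∈ V
  · refine ⟨1, ?_⟩
    rw [pow_one, mul_comm]
    exact ssm_tw_nonunits_mul V hy hw
  have hy0 : y ≠ 0 := by
    rintro rfl
    exact hy V.zero_mem
  have hyi : y⁻¹ ∈ V := (V.mem_or_inv_mem y).resolve_left hy
  obtain ⟨sw, tw, htw, hsw⟩ := (ssm_tw_bridge hV w).1 (V.nonunits_subset hw)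
  obtain ⟨sy, ty, hty, hsy⟩ := (ssm_tw_bridge hV y⁻¹).1 hyi
  have hswP : sw ∈ P := by
    rw [hP, ssm_tw_mem_centre, ← hsw]
    rw [mul_comm]
    exact ssm_tw_nonunits_mul V (ssm_tw_le hV tw.1 tw.2) hw
  have hty0 : (ty : E) ≠ 0 := by
    intro h0
    apply hty
    have : ty = 0 := Subtype.ext h0
    rw [this]; exact Ideal.zero_mem _
  have hsy0 : sy ≠ 0 := by
    intro h0
    have h1 : y⁻¹ * (ty : E) = 0 := by rw [hsy, h0, ZeroMemClass.coe_zero]
    rcases mul_eq_zero.1 h1 with h | h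
    · exact inv_ne_zero hy0 h
    · exact hty0 h
  -- Krull: `sy ∉ P ^ k` for some `k`
  have hinf : ⨅ i : ℕ, P ^ i = ⊥ := Ideal.iInf_pow_eq_bot_of_isDomain P hPprime.ne_top
  have hex : ∃ k : ℕ, sy ∉ P ^ k := by
    by_contra hcon
    push Not at hcon
    have : sy ∈ ⨅ i : ℕ, P ^ i := by
      rw [Ideal.mem_iInf]; exact hcon
    rw [hinf, Ideal.mem_bot] at this
    exact hsy0 this
  obtain ⟨k, hk⟩ := hex
  refine ⟨k, ?_⟩
  have hwk0 : w ^ k * y ≠ 0 := mul_ne_zero (pow_ne_zero k hw0) hy0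
  rw [ssm_tw_nonunits_iff]
  -- `(w ^ k * y)⁻¹ ∉ V`
  have hnot : (w ^ k * y)⁻¹ ∉ V := by
    intro hb
    obtain ⟨sb, tb, htb, hsb⟩ := (ssm_tw_bridge hV _).1 hb
    apply hk
    -- `sy * (tw ^ k * tb) = sw ^ k * sb * ty`
    have hmain : (tw ^ k * tb) * sy = sw ^ k * (sb * ty) := by
      apply Subtype.ext
      push_cast
      rw [← hsy, ← hsw, ← hsb]
      have hw' : w ^ k ≠ 0 := pow_ne_zero k hw0
      field_simp
      ring
    refine hprim k (tw ^ k * tb) sy ?_ ?_
    · intro hmem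
      rcases hPprime.mem_or_mem hmem with h | h
      · exact htw (hPprime.mem_of_pow_mem k h)
      · exact htb h
    · rw [hmain]
      exact (P ^ k).mul_mem_right _ (Ideal.pow_mem_pow hswP k)
  refine ⟨?_, Or.inr hnot⟩
  rcases V.mem_or_inv_mem (w ^ k * y) with h | h
  · exact h
  · exact absurd h hnot

end Over

end Fermat.Agent.S36
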