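/-
Project S36 (Carayol), cell [ABEL3-TOWER] (helper11), part 2: THE NORM FORMULAS ON ONE SIDE OF THE
TOWER, element-wise, in the vocabulary of `SS/Model/TwoValW.lean` / `S36/Ins1/Val.lean` /
`S36/NormEltV.lean` and with the hand-made order functions of `S36/ATower/Ord.lean`.
Prefix `s36at_`.

`K ⊆ E` finite separable of degree `q`, `N := (K ↪ E) ∘ N_{E/K} : E →* E` (`s36at_N`).

* ONE valuation `V` over a DVR `R` of `K`, purely inseparable of degree `q` (`s36i_Data`):
  `s36at_unif_of_data`, `s36at_ord_norm_one : ord_V (N x) = q · ord_V x`;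
* TWO valuations `VX` (`e = f = 1`), `VC` (`e = q - 1`, `f = 1`) over a DVR `R` of `K`
  (`𝔪_R S = Q_X · Q_C ^ (q - 1)`): `s36at_unif_of_map` (`π` is a uniformiser of `VX`),
  `s36at_res_of_inertiaDeg` (residue field of `VX` is that of `R`),
  `s36at_ord_norm_two : ord_X (N x) = ord_X x + ord_C x`.
The package of hypotheses on one side (`s36at_Side`) is in `S36/ATower/Side.lean`.
-/
import Mathlib
import Fermat.Agent.S36.ATower.Ord
import Fermat.Agent.S36.NormEltV

set_option autoImplicit false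
set_option linter.unusedSectionVars false
set_option linter.unusedVariables false
set_option linter.style.haveILetI false

open Fermat.Agent.JT3 Fermat.Agent.SS IsLocalRing

namespace Fermat.Agent.S36

section Norm

variable (K : Type*) {E : Type*} [Field K] [Field E] [Algebra K E]

/-- the norm of `E / K` followed by the inclusion, as a monoid homomorphism `E →* E`. -/
noncomputable def s36at_N : E →* E :=
  ((algebraMap K E : K →+* E) : K →* E).comp (Algebra.norm K)

theorem s36at_N_apply (x : E) : s36at_N K x = algebraMap K E (Algebra.norm K x) := rfl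

theorem s36at_N_algebraMap [FiniteDimensional K E] (c : K) :
    s36at_N K (algebraMap K E c) = algebraMap K E c ^ Module.finrank K E := by
  rw [s36at_N_apply, Algebra.norm_algebraMap, map_pow]

end Norm

section Side

variable {K : Type*} {E : Type*} [Field K] [Field E] [Algebra K E] [FiniteDimensional K E]
  [Algebra.IsSeparable K E]
  {R : Type*} [CommRing R] [IsDomain R] [IsDiscreteValuationRing R] [Algebra R K]
  [IsFractionRing R K] [Algebra R E] [IsScalarTower R K E]

include K in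
theorem s36at_algebraMap_injective : Function.Injective (algebraMap R E) := by
  rw [IsScalarTower.algebraMap_eq R K E]
  exact (algebraMap K E).injective.comp (IsFractionRing.injective R K)

include K in
/-- the image of a unit of `R` is a unit of every valuation subring over `R`. -/
theorem s36at_val_unit {V : ValuationSubring E} (hV : ssm_tw_Over K R V) {u : R} (hu : IsUnit u) :
    V.valuation (algebraMap R E u) = 1 := by
  apply s36at_val_eq_one (ssm_tw_over_mem hV u)
  intro h
  exact ((mem_maximalIdeal _).1 ((ssm_tw_over_nonunits hV u).1 h)) hu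

include K in
/-- the norm on constants of `K` coming from `R`. -/
theorem s36at_N_R (r : R) :
    s36at_N K (algebraMap R E r) = algebraMap R E r ^ Module.finrank K E := by
  rw [IsScalarTower.algebraMap_apply R K E, s36at_N_algebraMap]

include K in
/-- an element of `K` which is a unit of a valuation subring over `R` comes from a unit of `R`. -/
theorem s36at_unit_of_K {V : ValuationSubring E} (hV : ssm_tw_Over K R V) (n : K)
    (h : V.valuation (algebraMap K E n) = 1) :
    ∃ u : R, IsUnit u ∧ algebraMap K E n = algebraMap R E u := by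
  have h1 : algebraMap K E n ∈ V := (V.valuation_le_one_iff _).1 h.le
  obtain ⟨u, hu⟩ := (hV n).1 h1
  refine ⟨u, ?_, ?_⟩
  · by_contra hnu
    have h2 : u ∈ maximalIdeal R := (mem_maximalIdeal _).2 hnu
    have h3 := (ssm_tw_over_nonunits hV u).2 h2
    rw [IsScalarTower.algebraMap_apply R K E, hu] at h3
    have h4 : V.valuation (algebraMap K E n) < 1 := V.mem_nonunits_iff.1 h3
    rw [h] at h4
    exact lt_irrefl _ h4
  · rw [IsScalarTower.algebraMap_apply R K E, hu]

/-! ### One valuation, purely inseparable of degree `q` -/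

variable {q : ℕ} {V : ValuationSubring E} {t : E} {r : R}

include K in
/-- under the one-valuation data a uniformiser of `R` is a uniformiser of `V`. -/
theorem s36at_unif_of_data (D : s36i_Data K R q V t r) (π : R) (hπ : Irreducible π) :
    s36at_Unif V (algebraMap R E π) where
  ne_zero := by
    intro h
    exact hπ.ne_zero (s36at_algebraMap_injective (K := K) (by rw [h, map_zero]))
  mem := (ssm_tw_over_nonunits D.overR π).2 ((mem_maximalIdeal _).2 hπ.not_isUnit)
  gen := fun a ha => (s36i_unif D π hπ a).1 ha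

include K in
/-- **`ord_V (N x) = q · ord_V x`** when `V` is the only valuation over `R`, `e = 1`, `f = q`. -/
theorem s36at_ord_norm_one (D : s36i_Data K R q V t r) (π : R) (hπ : Irreducible π) (x : E)
    (hx : x ≠ 0) :
    s36at_ord V (algebraMap R E π) (s36at_N K x) =
      (q : ℤ) * s36at_ord V (algebraMap R E π) x := by
  have hU := s36at_unif_of_data D π hπ
  have harch := s36at_arch_of_over D.overR
  have ho := s36at_isOrd hU harch
  set ϖ := algebraMap R E π with hϖ
  set n := s36at_ord V ϖ x with hn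
  obtain ⟨u, hu⟩ : ∃ u : E, u = x * ϖ ^ (-n) := ⟨_, rfl⟩
  have hu1 : V.valuation u = 1 := by rw [hu]; exact s36at_ord_spec hU harch hx
  have hu0 : u ≠ 0 := by rw [hu]; exact mul_ne_zero hx (zpow_ne_zero _ hU.ne_zero)
  have hxu : x = u * ϖ ^ n := by
    rw [hu, mul_assoc, ← zpow_add₀ hU.ne_zero, neg_add_cancel, zpow_zero, mul_one]
  -- `N u` is a unit
  have hNu : V.valuation (s36at_N K u) = 1 := by
    have h1 := s36nx_nA_val D u ((V.valuation_le_one_iff u).1 hu1.le)
    have h2 : V.valuation (u ^ q) = 1 := by rw [map_pow, hu1, one_pow]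
    exact s36a_unit_of_sub V h2 h1
  have hNu0 : s36at_N K u ≠ 0 := s36a_map_ne_zero _ hu0
  have hNϖ : s36at_N K ϖ = ϖ ^ q := by
    rw [hϖ, s36at_N_R (K := K), D.finrank_eq]
  have hNx : s36at_N K x = s36at_N K u * (ϖ ^ q) ^ n := by
    calc s36at_N K x = s36at_N K (u * ϖ ^ n) := by rw [← hxu]
      _ = s36at_N K u * (ϖ ^ q) ^ n := by
        rw [map_mul, s36a_map_zpow _ hU.ne_zero, hNϖ]
  rw [hNx, ho.mul _ _ hNu0 (zpow_ne_zero _ (pow_ne_zero _ hU.ne_zero)),
    ho.zpow (pow_ne_zero _ hU.ne_zero), ho.pow hU.ne_zero, s36at_ord_self hU,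
    (ho.unit _ hNu0).2 hNu]
  ring

/-! ### Two valuations `VX` (`e = f = 1`), `VC` (`e = q - 1`, `f = 1`) -/

include K in
/-- the residue field of a valuation subring over `R` with `f = 1` is that of `R`. -/
theorem s36at_res_of_inertiaDeg {VX : ValuationSubring E} (hVX : ssm_tw_Over K R VX)
    (hf : (ssm_tw_centre K R VX hVX).inertiaDeg R = 1) (a : E) (ha : a ∈ VX) :
    ∃ r : R, a - algebraMap R E r ∈ VX.nonunits := by
  obtain ⟨hD, hF, hfin, hfree, hrk⟩ := ssm_tw_inst K (E := E) R
  haveI := hD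
  haveI := hfin
  haveI := hfree
  haveI : (ssm_tw_centre K R VX hVX).IsMaximal := ssm_tw_centre_isMaximal hVX
  haveI : (ssm_tw_centre K R VX hVX).LiesOver (maximalIdeal R) :=
    ⟨(ssm_tw_comap_centre hVX).symm⟩
  obtain ⟨s, hs⟩ := ssm_tw_exists_lift hVX a ha
  obtain ⟨r, hr⟩ := s36nx_surj_of_inertiaDeg (ssm_tw_centre K R VX hVX) hf s
  refine ⟨r, ?_⟩
  rw [ssm_tw_mem_centre] at hr
  have e : a - algebraMap R E r =
      ((s - algebraMap R ↥(integralClosure R E) r : ↥(integralClosure R E)) : E) -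
        ((s : E) - a) := by
    push_cast
    ring
  rw [e]
  exact ssm_tw_nonunits_sub _ hr hs

include K in
/-- if `𝔪_R S = Q_X · Q_C ^ (q - 1)` with `Q_X ≠ Q_C`, a uniformiser of `R` is a uniformiser
of `VX`. -/
theorem s36at_unif_of_map {VX VC : ValuationSubring E} (hVX : ssm_tw_Over K R VX)
    (hVC : ssm_tw_Over K R VC)
    (hne : ssm_tw_centre K R VX hVX ≠ ssm_tw_centre K R VC hVC)
    (hmap : (maximalIdeal R).map (algebraMap R ↥(integralClosure R E)) =
      ssm_tw_centre K R VX hVX * ssm_tw_centre K R VC hVC ^ (q - 1))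
    (π : R) (hπ : Irreducible π) : s36at_Unif VX (algebraMap R E π) where
  ne_zero := by
    intro h
    exact hπ.ne_zero (s36at_algebraMap_injective (K := K) (by rw [h, map_zero]))
  mem := (ssm_tw_over_nonunits hVX π).2 ((mem_maximalIdeal _).2 hπ.not_isUnit)
  gen := by
    intro a ha
    obtain ⟨hD, -, -, -, -⟩ := ssm_tw_inst K (E := E) R
    haveI := hD
    haveI hPX : (ssm_tw_centre K R VX hVX).IsMaximal := ssm_tw_centre_isMaximal hVX
    haveI hPC : (ssm_tw_centre K R VC hVC).IsMaximal := ssm_tw_centre_isMaximal hVC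
    have hXprime : (ssm_tw_centre K R VX hVX).IsPrime := hPX.isPrime
    -- `Q_C ^ (q-1) ⊄ Q_X`
    have hnle : ¬ ssm_tw_centre K R VC hVC ^ (q - 1) ≤ ssm_tw_centre K R VX hVX := by
      intro hle
      have h1 : ssm_tw_centre K R VC hVC ≤ ssm_tw_centre K R VX hVX := hXprime.le_of_pow_le hle
      exact hne (hPC.eq_of_le hXprime.ne_top h1).symm
    obtain ⟨t2, ht2, ht2X⟩ := Set.not_subset.1 hnle
    refine ssm_tw_unif_aux hVX π (ssm_tw_centre K R VC hVC ^ (q - 1)) ⟨t2, ht2, ht2X⟩ ?_ a ha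
    intro x hxX hxC
    -- `Q_X ⊓ Q_C^(q-1) = Q_X * Q_C^(q-1) = π S`
    have hcop : IsCoprime (ssm_tw_centre K R VX hVX) (ssm_tw_centre K R VC hVC ^ (q - 1)) := by
      apply IsCoprime.pow_right
      rw [Ideal.isCoprime_iff_sup_eq]
      exact hPX.coprime_of_ne hPC hne
    have hinf : ssm_tw_centre K R VX hVX ⊓ ssm_tw_centre K R VC hVC ^ (q - 1) =
        ssm_tw_centre K R VX hVX * ssm_tw_centre K R VC hVC ^ (q - 1) :=
      (Ideal.mul_eq_inf_of_coprime (Ideal.isCoprime_iff_sup_eq.1 hcop)).symm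
    have hx : x ∈ (maximalIdeal R).map (algebraMap R ↥(integralClosure R E)) := by
      rw [hmap, ← hinf]
      exact ⟨hxX, hxC⟩
    rw [hπ.maximalIdeal_eq, Ideal.map_span, Set.image_singleton,
      Ideal.mem_span_singleton] at hx
    exact hx

include K in
/-- **`ord_X (N x) = ord_X x + ord_C x`** when `VX` (`e = f = 1`) and `VC` (`e = q - 1`, `f = 1`)
are the valuations over `R`.  `zC` a uniformiser of `VC`, a unit at `VX`, with
`N_{E/K}(zC) = π · unit`. -/
theorem s36at_ord_norm_two (hq : 2 ≤ q) (hrank : Module.finrank K E = q)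
    {VX VC : ValuationSubring E} (hVX : ssm_tw_Over K R VX) (hVC : ssm_tw_Over K R VC)
    (hne : ssm_tw_centre K R VX hVX ≠ ssm_tw_centre K R VC hVC)
    (hmap : (maximalIdeal R).map (algebraMap R ↥(integralClosure R E)) =
      ssm_tw_centre K R VX hVX * ssm_tw_centre K R VC hVC ^ (q - 1))
    (hfX : (ssm_tw_centre K R VX hVX).inertiaDeg R = 1)
    (hfC : (ssm_tw_centre K R VC hVC).inertiaDeg R = 1)
    (π : R) (hπ : Irreducible π) (zC : E) (hUC : s36at_Unif VC zC)
    (hzX : VX.valuation zC = 1)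
    (hram : ∃ u : E, VC.valuation u = 1 ∧ algebraMap R E π = u * zC ^ (q - 1))
    (hNz : ∃ u : R, IsUnit u ∧ algebraMap K E (Algebra.norm K zC) = algebraMap R E (π * u))
    (x : E) (hx : x ≠ 0) :
    s36at_ord VX (algebraMap R E π) (s36at_N K x) =
      s36at_ord VX (algebraMap R E π) x + s36at_ord VC zC x := by
  have hUX := s36at_unif_of_map hVX hVC hne hmap π hπ
  have harX := s36at_arch_of_over hVX
  have harC := s36at_arch_of_over hVC
  have hoX := s36at_isOrd hUX harX
  have hoC := s36at_isOrd hUC harC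
  set ϖ := algebraMap R E π with hϖ
  have hϖ0 : ϖ ≠ 0 := hUX.ne_zero
  have hz0 : zC ≠ 0 := hUC.ne_zero
  -- the four basic orders
  have oXϖ : s36at_ord VX ϖ ϖ = 1 := s36at_ord_self hUX
  have oCz : s36at_ord VC zC zC = 1 := s36at_ord_self hUC
  have oXz : s36at_ord VX ϖ zC = 0 := s36at_ord_of_unit hUX hzX
  have oCϖ : s36at_ord VC zC ϖ = (q : ℤ) - 1 := by
    obtain ⟨u, hu, hϖu⟩ := hram
    have hu0 : u ≠ 0 := by
      rintro rfl
      rw [map_zero] at hu
      exact zero_ne_one hu
    rw [hϖu, hoC.mul _ _ hu0 (pow_ne_zero _ hz0), hoC.pow hz0, oCz, s36at_ord_of_unit hUC hu]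
    have : ((q - 1 : ℕ) : ℤ) = (q : ℤ) - 1 := by
      rw [Nat.cast_sub (by omega : 1 ≤ q)]; simp
    rw [this]; ring
  set a := s36at_ord VX ϖ x with ha
  set c := s36at_ord VC zC x with hc
  set e : ℤ := c - ((q : ℤ) - 1) * a with he
  obtain ⟨y, hy⟩ : ∃ y : E, y = ϖ ^ a * zC ^ e := ⟨_, rfl⟩
  have hy0 : y ≠ 0 := by
    rw [hy]; exact mul_ne_zero (zpow_ne_zero _ hϖ0) (zpow_ne_zero _ hz0)
  have oXy : s36at_ord VX ϖ y = a := by
    rw [hy, hoX.mul _ _ (zpow_ne_zero _ hϖ0) (zpow_ne_zero _ hz0), hoX.zpow hϖ0, hoX.zpow hz0,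
      oXϖ, oXz]
    ring
  have oCy : s36at_ord VC zC y = c := by
    rw [hy, hoC.mul _ _ (zpow_ne_zero _ hϖ0) (zpow_ne_zero _ hz0), hoC.zpow hϖ0, hoC.zpow hz0,
      oCϖ, oCz, he]
    ring
  obtain ⟨u, hu⟩ : ∃ u : E, u = x * y⁻¹ := ⟨_, rfl⟩
  have hu0 : u ≠ 0 := by rw [hu]; exact mul_ne_zero hx (inv_ne_zero hy0)
  have hxu : x = u * y := by
    rw [hu, mul_assoc, inv_mul_cancel₀ hy0, mul_one]
  have huX : VX.valuation u = 1 := by
    rw [← hoX.unit _ hu0, hu, hoX.mul _ _ hx (inv_ne_zero hy0), hoX.inv hy0, oXy]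
    ring
  have huC : VC.valuation u = 1 := by
    rw [← hoC.unit _ hu0, hu, hoC.mul _ _ hx (inv_ne_zero hy0), hoC.inv hy0, oCy]
    ring
  have huXm : u ∈ VX := (VX.valuation_le_one_iff u).1 huX.le
  have huCm : u ∈ VC := (VC.valuation_le_one_iff u).1 huC.le
  -- `N u` is a unit at `VX`
  have hNuX : VX.valuation (s36at_N K u) = 1 := by
    obtain ⟨r, hr⟩ := s36at_res_of_inertiaDeg hVX hfX u huXm
    -- `r` is a unit of `R`
    have hrunit : IsUnit r := by
      by_contra hnu
      have h1 : algebraMap R E r ∈ VX.nonunits :=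
        (ssm_tw_over_nonunits hVX r).2 ((mem_maximalIdeal _).2 hnu)
      have h2 : u ∈ VX.nonunits := by
        have : u = (u - algebraMap R E r) + algebraMap R E r := by ring
        rw [this]
        exact ssm_tw_nonunits_add _ hr h1
      have h3 : VX.valuation u < 1 := VX.mem_nonunits_iff.1 h2
      rw [huX] at h3
      exact lt_irrefl _ h3
    have h1 := s36nx_nC_val hq hrank hVX hVC hne hmap hfX hfC u huXm huCm r hr
    have h2 : VC.valuation (algebraMap R E r * u ^ (q - 1)) = 1 := by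
      rw [map_mul, map_pow, huC, one_pow, mul_one]
      exact s36at_val_unit hVC hrunit
    have h3 : VC.valuation (s36at_N K u) = 1 := s36a_unit_of_sub VC h2 h1
    obtain ⟨n', hn', hNn'⟩ := s36at_unit_of_K hVC (Algebra.norm K u) h3
    rw [s36at_N_apply, hNn']
    exact s36at_val_unit hVX hn'
  have hNu0 : s36at_N K u ≠ 0 := s36a_map_ne_zero _ hu0
  -- `N ϖ = ϖ ^ q`, `N zC = ϖ * unit`
  have hNϖ : s36at_N K ϖ = ϖ ^ q := by
    rw [hϖ, s36at_N_R (K := K), hrank]
  obtain ⟨w, hw, hNzw⟩ := hNz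
  have hNzC : s36at_N K zC = ϖ * algebraMap R E w := by
    rw [s36at_N_apply, hNzw, map_mul]
  have hw1 : VX.valuation (algebraMap R E w) = 1 := s36at_val_unit hVX hw
  have hw0 : algebraMap R E w ≠ 0 := by
    intro h
    rw [h, map_zero] at hw1
    exact zero_ne_one hw1
  have oNz : s36at_ord VX ϖ (s36at_N K zC) = 1 := by
    rw [hNzC, hoX.mul _ _ hϖ0 hw0, oXϖ, s36at_ord_of_unit hUX hw1]
    ring
  have hNz0 : s36at_N K zC ≠ 0 := s36a_map_ne_zero _ hz0
  have hNx : s36at_N K x = s36at_N K u * ((ϖ ^ q) ^ a * (s36at_N K zC) ^ e) := by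
    calc s36at_N K x = s36at_N K (u * y) := by rw [← hxu]
      _ = s36at_N K u * ((ϖ ^ q) ^ a * (s36at_N K zC) ^ e) := by
        rw [map_mul, hy, map_mul, s36a_map_zpow _ hϖ0, s36a_map_zpow _ hz0, hNϖ]
  rw [hNx, hoX.mul _ _ hNu0 (mul_ne_zero (zpow_ne_zero _ (pow_ne_zero _ hϖ0))
      (zpow_ne_zero _ hNz0)),
    hoX.mul _ _ (zpow_ne_zero _ (pow_ne_zero _ hϖ0)) (zpow_ne_zero _ hNz0),
    hoX.zpow (pow_ne_zero _ hϖ0), hoX.pow hϖ0, oXϖ, hoX.zpow hNz0, oNz,
    (hoX.unit _ hNu0).2 hNuX, he]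
  ring

end Side

end Fermat.Agent.S36
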