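/-
Project S36 (Carayol), cell [ABEL3-TOWER] (helper11), part 3: THE PACKAGE OF HYPOTHESES ON ONE SIDE
OF THE TOWER (`s36at_Side`) and everything it gives.  Prefix `s36at_`.

`K ⊆ E` finite separable of degree `q ≥ 2`; two DVRs `R`, `R'` of `K`:
* over `R` (uniformiser `π`) the valuations `VX` (`e = f = 1`) and `VC` (`e = q - 1`, `f = 1`),
  `𝔪_R S = Q_X · Q_C ^ (q - 1)` (= the output of `s36vv_main` = the hypotheses of `s36nx_nC_val`),
  `z` a uniformiser of `VC`, a unit at `VX`, with `N_{E/K}(z) · w = c`, `c ∉ 𝔪_R ^ 2`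
  (= helper8's `s36th_leg_hN` / `s36th_hes_hN` VERBATIM);
* over `R'` (uniformiser `π'`) the valuation `VY` alone, purely inseparable (`s36i_Data`).

Side 1 of the tower: `(K, R, R', VX, VY, VC) = (E₁, VF, VV, VA, VB, VC)`;
side 2: `(β E₁, VU, VG, VB, VA, VC)`.
-/
import Mathlib
import Fermat.Agent.S36.ATower.Norms
import Fermat.Agent.S36.Model.Val3V

set_option autoImplicit false
set_option linter.unusedSectionVars false
set_option linter.unusedVariables false
set_option linter.style.haveILetI false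

open Fermat.Agent.JT3 Fermat.Agent.SS IsLocalRing

namespace Fermat.Agent.S36

section Side

variable (K : Type*) {E : Type*} [Field K] [Field E] [Algebra K E] [FiniteDimensional K E]
  [Algebra.IsSeparable K E]
  (R : Type*) [CommRing R] [IsDomain R] [IsDiscreteValuationRing R] [Algebra R K]
  [IsFractionRing R K] [Algebra R E] [IsScalarTower R K E]
  (R' : Type*) [CommRing R'] [IsDomain R'] [IsDiscreteValuationRing R'] [Algebra R' K]
  [IsFractionRing R' K] [Algebra R' E] [IsScalarTower R' K E]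

/-- the hypotheses on one side of the tower. -/
structure s36at_Side (q : ℕ) (VX VY VC : ValuationSubring E) (π : R) (π' : R') (z t : E)
    (r : R') : Prop where
  two_le : 2 ≤ q
  finrank_eq : Module.finrank K E = q
  irr : Irreducible π
  irr' : Irreducible π'
  overX : ssm_tw_Over K R VX
  overC : ssm_tw_Over K R VC
  ne : ssm_tw_centre K R VX overX ≠ ssm_tw_centre K R VC overC
  map_eq : (maximalIdeal R).map (algebraMap R ↥(integralClosure R E)) =
    ssm_tw_centre K R VX overX * ssm_tw_centre K R VC overC ^ (q - 1)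
  fX : (ssm_tw_centre K R VX overX).inertiaDeg R = 1
  fC : (ssm_tw_centre K R VC overC).inertiaDeg R = 1
  dataY : s36i_Data K R' q VY t r
  unifC : s36at_Unif VC z
  zX : VX.valuation z = 1
  ram : ∃ u : E, VC.valuation u = 1 ∧ algebraMap R E π = u * z ^ (q - 1)
  normz : ∃ c w : R, c ∉ maximalIdeal R ^ 2 ∧
    Algebra.norm K z * algebraMap R K w = algebraMap R K c

variable {K R R'}

/-! ### adaptors from the centre form (`s36vv_main`) -/

include K in
/-- `z ∈ Q ∖ Q ^ 2` is a uniformiser of `V`. -/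
theorem s36at_unif_of_centre {V : ValuationSubring E} (hV : ssm_tw_Over K R V)
    (z : ↥(integralClosure R E)) (hz1 : z ∈ ssm_tw_centre K R V hV)
    (hz2 : z ∉ ssm_tw_centre K R V hV ^ 2) : s36at_Unif V (z : E) where
  ne_zero := by
    intro h0
    apply hz2
    have : z = 0 := Subtype.ext h0
    rw [this]
    exact Ideal.zero_mem _
  mem := (ssm_tw_mem_centre hV z).1 hz1
  gen := fun a ha => (s36vv_unif hV z hz1 hz2 a).1 ha

include K in
/-- `z ∉ Q` is a unit of `V`. -/
theorem s36at_val_one_of_not_mem {V : ValuationSubring E} (hV : ssm_tw_Over K R V)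
    (z : ↥(integralClosure R E)) (hz : z ∉ ssm_tw_centre K R V hV) :
    V.valuation (z : E) = 1 :=
  s36at_val_eq_one (s36vv_unit_of_not_mem hV z hz).1 (s36vv_unit_of_not_mem hV z hz).2

/-- `u ≠ 0`, `u, u⁻¹ ∈ V` ⟹ `v(u) = 1`. -/
theorem s36at_val_one_of_inv_mem {V : ValuationSubring E} {u : E} (h0 : u ≠ 0) (hu : u ∈ V)
    (hu' : u⁻¹ ∈ V) : V.valuation u = 1 := by
  have h1 : V.valuation u ≤ 1 := (V.valuation_le_one_iff u).2 hu
  have h2 : V.valuation u⁻¹ ≤ 1 := (V.valuation_le_one_iff _).2 hu'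
  rw [map_inv₀] at h2
  have h3 : V.valuation u ≠ 0 := (Valuation.ne_zero_iff _).2 h0
  have h4 : 1 ≤ V.valuation u := (inv_le_one₀ (zero_lt_iff.2 h3)).1 h2
  exact le_antisymm h1 h4

include K in
/-- the ramification of `VC` in the form of `s36at_Side.ram`, from the centre form. -/
theorem s36at_ram_of_centre {VX VC : ValuationSubring E} (hVX : ssm_tw_Over K R VX)
    (hVC : ssm_tw_Over K R VC)
    (hne : ssm_tw_centre K R VX hVX ≠ ssm_tw_centre K R VC hVC) {n : ℕ}
    (hmap : (maximalIdeal R).map (algebraMap R ↥(integralClosure R E)) =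
      ssm_tw_centre K R VX hVX * ssm_tw_centre K R VC hVC ^ n)
    (π : R) (hπ : Irreducible π) (z : ↥(integralClosure R E))
    (hz1 : z ∈ ssm_tw_centre K R VC hVC) (hz2 : z ∉ ssm_tw_centre K R VC hVC ^ 2) :
    ∃ u : E, VC.valuation u = 1 ∧ algebraMap R E π = u * (z : E) ^ n := by
  obtain ⟨u, hu, hu', hπu⟩ := s36vv_ram hVX hVC hne hmap π hπ z hz1 hz2
  refine ⟨u, s36at_val_one_of_inv_mem ?_ hu hu', hπu⟩
  rintro rfl
  rw [zero_mul] at hπu
  exact hπ.ne_zero (s36at_algebraMap_injective (K := K) (by rw [hπu, map_zero]))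

include K in
/-- the norm hypothesis in the `c w` form from `Algebra.norm R z ∉ 𝔪_R ^ 2` (the hypothesis `hN`
of `s36vv_main`). -/
theorem s36at_normz_of_norm (z : ↥(integralClosure R E))
    (hN : Algebra.norm R z ∉ maximalIdeal R ^ 2) :
    ∃ c w : R, c ∉ maximalIdeal R ^ 2 ∧
      Algebra.norm K (z : E) * algebraMap R K w = algebraMap R K c := by
  refine ⟨Algebra.norm R z, 1, hN, ?_⟩
  have h := s36nx_norm_coe K R z
  rw [map_one, mul_one]
  apply (algebraMap K E).injective
  rw [h, ← IsScalarTower.algebraMap_apply R K E]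
  rfl

/-- **the constructor from the output of `s36vv_main`** (centre form). -/
theorem s36at_side_of_centre {q : ℕ} {VX VY VC : ValuationSubring E} {π : R} {π' : R'} {t : E}
    {r : R'} (hq : 2 ≤ q) (hπ : Irreducible π) (hπ' : Irreducible π')
    (hVX : ssm_tw_Over K R VX) (hVC : ssm_tw_Over K R VC)
    (hne : ssm_tw_centre K R VX hVX ≠ ssm_tw_centre K R VC hVC)
    (hmap : (maximalIdeal R).map (algebraMap R ↥(integralClosure R E)) =
      ssm_tw_centre K R VX hVX * ssm_tw_centre K R VC hVC ^ (q - 1))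
    (hfX : (ssm_tw_centre K R VX hVX).inertiaDeg R = 1)
    (hfC : (ssm_tw_centre K R VC hVC).inertiaDeg R = 1)
    (D : s36i_Data K R' q VY t r)
    (z : ↥(integralClosure R E)) (hz1 : z ∈ ssm_tw_centre K R VC hVC)
    (hz2 : z ∉ ssm_tw_centre K R VC hVC ^ 2) (hzX : z ∉ ssm_tw_centre K R VX hVX)
    (hN : ∃ c w : R, c ∉ maximalIdeal R ^ 2 ∧
      Algebra.norm K (z : E) * algebraMap R K w = algebraMap R K c) :
    s36at_Side K R R' q VX VY VC π π' (z : E) t r where
  two_le := hq
  finrank_eq := D.finrank_eq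
  irr := hπ
  irr' := hπ'
  overX := hVX
  overC := hVC
  ne := hne
  map_eq := hmap
  fX := hfX
  fC := hfC
  dataY := D
  unifC := s36at_unif_of_centre hVC z hz1 hz2
  zX := s36at_val_one_of_not_mem hVX z hzX
  ram := s36at_ram_of_centre hVX hVC hne hmap π hπ z hz1 hz2
  normz := hN

/-! ### consequences -/

variable {q : ℕ} {VX VY VC : ValuationSubring E} {π : R} {π' : R'} {z t : E} {r : R'}

namespace s36at_Side

variable (S : s36at_Side K R R' q VX VY VC π π' z t r)

include S

theorem unifX : s36at_Unif VX (algebraMap R E π) :=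
  s36at_unif_of_map S.overX S.overC S.ne S.map_eq π S.irr

theorem unifY : s36at_Unif VY (algebraMap R' E π') :=
  s36at_unif_of_data S.dataY π' S.irr'

theorem archX : s36wa_Arch VX := s36at_arch_of_over S.overX

theorem archY : s36wa_Arch VY := s36at_arch_of_over S.dataY.overR

theorem archC : s36wa_Arch VC := s36at_arch_of_over S.overC

theorem ordX_isOrd : s36a_Ord VX (s36at_ord VX (algebraMap R E π)) :=
  s36at_isOrd S.unifX S.archX

theorem ordY_isOrd : s36a_Ord VY (s36at_ord VY (algebraMap R' E π')) :=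
  s36at_isOrd S.unifY S.archY

theorem ordC_isOrd : s36a_Ord VC (s36at_ord VC z) :=
  s36at_isOrd S.unifC S.archC

/-- `VX ≠ VC`: `z` separates them. -/
theorem ne_XC : VX ≠ VC := by
  intro h
  have h1 : VC.valuation z < 1 := s36at_val_lt_one S.unifC
  rw [← h, S.zX] at h1
  exact lt_irrefl _ h1

/-- `ord_C π = q - 1`. -/
theorem ordC_pi : s36at_ord VC z (algebraMap R E π) = (q : ℤ) - 1 := by
  obtain ⟨u, hu, hπu⟩ := S.ram
  have hoC := S.ordC_isOrd
  have hz0 : z ≠ 0 := S.unifC.ne_zero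
  have hu0 : u ≠ 0 := by
    rintro rfl
    rw [map_zero] at hu
    exact zero_ne_one hu
  rw [hπu, hoC.mul _ _ hu0 (pow_ne_zero _ hz0), hoC.pow hz0, s36at_ord_self S.unifC,
    s36at_ord_of_unit S.unifC hu]
  have h2 := S.two_le
  have : ((q - 1 : ℕ) : ℤ) = (q : ℤ) - 1 := by
    rw [Nat.cast_sub (by omega : 1 ≤ q)]; simp
  rw [this]; ring

/-- `N_{E/K}(z) = π · unit`. -/
theorem normz' : ∃ u : R, IsUnit u ∧
    algebraMap K E (Algebra.norm K z) = algebraMap R E (π * u) := by
  obtain ⟨c, w, hc, hcw⟩ := S.normz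
  have hq := S.two_le
  -- `N z ∈ 𝔪(VC)`
  have hzXm : z ∈ VX := (VX.valuation_le_one_iff z).1 S.zX.le
  have hzCm : z ∈ VC := VC.nonunits_subset S.unifC.mem
  obtain ⟨r0, hr0⟩ := s36at_res_of_inertiaDeg S.overX S.fX z hzXm
  have h1 := s36nx_nC_val hq S.finrank_eq S.overX S.overC S.ne S.map_eq S.fX S.fC z hzXm hzCm
    r0 hr0
  have h2 : algebraMap R E r0 * z ^ (q - 1) ∈ VC.nonunits := by
    have e : q - 1 = (q - 2) + 1 := by omega
    rw [e, pow_succ, ← mul_assoc]
    exact ssm_tw_nonunits_mul VC (VC.mul_mem _ _ (ssm_tw_over_mem S.overC r0)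
      (pow_mem hzCm _)) S.unifC.mem
  have h3 : algebraMap K E (Algebra.norm K z) ∈ VC.nonunits := by
    have e : algebraMap K E (Algebra.norm K z) =
        (algebraMap K E (Algebra.norm K z) - algebraMap R E r0 * z ^ (q - 1)) +
          algebraMap R E r0 * z ^ (q - 1) := by ring
    rw [e]
    exact ssm_tw_nonunits_add VC h1 h2
  -- hence `N z = a` with `a ∈ 𝔪_R`
  obtain ⟨a, ha⟩ := (S.overC (Algebra.norm K z)).1 (VC.nonunits_subset h3)
  have haE : algebraMap K E (Algebra.norm K z) = algebraMap R E a := by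
    rw [IsScalarTower.algebraMap_apply R K E, ha]
  have ham : a ∈ maximalIdeal R := by
    rw [haE] at h3
    exact (ssm_tw_over_nonunits S.overC a).1 h3
  rw [S.irr.maximalIdeal_eq, Ideal.mem_span_singleton] at ham
  obtain ⟨b, rfl⟩ := ham
  refine ⟨b, ?_, haE⟩
  -- `b` is a unit since `π b w = c ∉ 𝔪 ^ 2`
  by_contra hb
  have hbm : b ∈ maximalIdeal R := (mem_maximalIdeal _).2 hb
  apply hc
  have hcE : c = π * b * w := by
    apply IsFractionRing.injective R K
    rw [← hcw, ← ha, map_mul, map_mul, map_mul]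
  rw [hcE, pow_two, mul_assoc]
  refine Ideal.mul_mem_mul ?_ (Ideal.mul_mem_right _ _ hbm)
  exact (mem_maximalIdeal _).2 S.irr.not_isUnit

/-- **`ord_X (N x) = ord_X x + ord_C x`**. -/
theorem ordX_norm (x : E) (hx : x ≠ 0) :
    s36at_ord VX (algebraMap R E π) (s36at_N K x) =
      s36at_ord VX (algebraMap R E π) x + s36at_ord VC z x :=
  s36at_ord_norm_two S.two_le S.finrank_eq S.overX S.overC S.ne S.map_eq S.fX S.fC π S.irr z
    S.unifC S.zX S.ram S.normz' x hx

/-- **`ord_Y (N x) = q · ord_Y x`**. -/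
theorem ordY_norm (x : E) (hx : x ≠ 0) :
    s36at_ord VY (algebraMap R' E π') (s36at_N K x) =
      (q : ℤ) * s36at_ord VY (algebraMap R' E π') x :=
  s36at_ord_norm_one S.dataY π' S.irr' x hx

/-- **(nY)**: `N x ≡ x ^ q mod 𝔪(VY)`. -/
theorem nY (x : E) (hx : x ∈ VY) : s36at_N K x - x ^ q ∈ VY.nonunits :=
  s36nx_nA_val S.dataY x hx

/-- **(nC)**: `x ≡ r mod 𝔪(VX)` ⟹ `N x ≡ r · x ^ (q - 1) mod 𝔪(VC)`. -/
theorem nC (x : E) (hxX : x ∈ VX) (hxC : x ∈ VC) (r0 : R)
    (hr0 : x - algebraMap R E r0 ∈ VX.nonunits) :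
    s36at_N K x - algebraMap R E r0 * x ^ (q - 1) ∈ VC.nonunits :=
  s36nx_nC_val S.two_le S.finrank_eq S.overX S.overC S.ne S.map_eq S.fX S.fC x hxX hxC r0 hr0

/-- the norm on the constants of `R`. -/
theorem N_R (r0 : R) : s36at_N K (algebraMap R E r0) = algebraMap R E r0 ^ q := by
  rw [s36at_N_R (K := K), S.finrank_eq]

/-- `VX` and `VC` have the same restriction to `K` (membership). -/
theorem mem_iff (k : K) : algebraMap K E k ∈ VX ↔ algebraMap K E k ∈ VC := by
  rw [S.overX k, S.overC k]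

/-- `VX` and `VC` have the same restriction to `K` (maximal ideals). -/
theorem nonunits_iff (k : K) : algebraMap K E k ∈ VX.nonunits ↔ algebraMap K E k ∈ VC.nonunits := by
  rw [ssm_tw_nonunits_iff, ssm_tw_nonunits_iff, ← map_inv₀, S.mem_iff k, S.mem_iff k⁻¹]

/-- residues of `VX` come from `R`. -/
theorem resX (a : E) (ha : a ∈ VX) : ∃ r0 : R, a - algebraMap R E r0 ∈ VX.nonunits :=
  s36at_res_of_inertiaDeg S.overX S.fX a ha

/-- residues of `VC` come from `R`. -/
theorem resC (a : E) (ha : a ∈ VC) : ∃ r0 : R, a - algebraMap R E r0 ∈ VC.nonunits :=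
  s36at_res_of_inertiaDeg S.overC S.fC a ha

/-- `VX ≠ VY`: the residue field of `VY` is bigger than that of `R'`, that of `VX` is not bigger
than that of `R`. -/
theorem ne_XY : VX ≠ VY := by
  intro h
  have D := S.dataY
  have htX : t ∈ VX := by rw [h]; exact D.t_mem
  obtain ⟨r0, hr0⟩ := S.resX t htX
  -- `r0` comes from `R'`
  have h1 : algebraMap K E (algebraMap R K r0) ∈ VY := by
    rw [← h, ← IsScalarTower.algebraMap_apply R K E]
    exact ssm_tw_over_mem S.overX r0
  obtain ⟨r1, hr1⟩ := (D.overR _).1 h1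
  apply D.nres r1
  rw [IsScalarTower.algebraMap_apply R' K E, hr1, ← IsScalarTower.algebraMap_apply R K E, ← h]
  exact hr0

end s36at_Side

end Side

end Fermat.Agent.S36
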