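/-
Project S36 (Carayol), cell [ABEL3-TOWER] (helper11), part 4: THE TWO-SIDED TOWER.  Prefix `s36at_`.

`L ⊆ K1, K2 ⊆ E`, `[E : K1] = [E : K2] = q ≥ 2`; `O ⊆ L` a valuation ring with uniformiser `ϖ`;
DVRs `RF, RV` of `K1` and `RU, RG` of `K2`; `VA VB VC : ValuationSubring E`:

  side 1 : `s36at_Side K1 RF RV q VA VB VC πF πV zC  tB rB`   (`VA, VC | RF`, `VB | RV`),
  side 2 : `s36at_Side K2 RU RG q VB VA VC πU πG zC' tA rA`   (`VB, VC | RU`, `VA | RG`),

all four uniformisers being (the images of) `ϖ`, and `VA ∩ L = VB ∩ L = O`.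

OUTPUT: all the hypotheses of helper1's `s36a_vert_abel3` (S36/Abel3/Vert.lean) except `hroot`
(`s36at_Tower.hVC … hnC2`, `hWA3`), the theorem `s36at_main` (= its conclusion) and `s36at_core`
(= the conclusion of helper1's `s36c_core`, S36/ACore/Core.lean, from the tower, the three (root)
properties, the horizontal orders and the seam `hglue`).
-/
import Mathlib
import Fermat.Agent.S36.ATower.Side
import Fermat.Agent.S36.ACore.Core

set_option autoImplicit false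
set_option linter.unusedSectionVars false
set_option linter.unusedVariables false
set_option linter.style.haveILetI false
set_option maxHeartbeats 1000000

open Fermat.Agent.JT3 Fermat.Agent.SS IsLocalRing

namespace Fermat.Agent.S36

section Root

variable {L E : Type*} [Field L] [Field E] [Algebra L E]
  {R : Type*} [CommRing R] [Algebra R E]

/-- the (root) property at `V` from the (root) property on a ring `R` of representatives of the
residue field of `V`. -/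
theorem s36at_root_of_res (O : ValuationSubring L) (V : ValuationSubring E) (m : ℕ)
    (hmem : ∀ r : R, algebraMap R E r ∈ V)
    (hres : ∀ a : E, a ∈ V → ∃ r : R, a - algebraMap R E r ∈ V.nonunits)
    (hC : ∀ c : L, c ∈ O → algebraMap L E c ∈ V)
    (hrootR : ∀ r : R, ∀ c : L, O.valuation c = 1 →
      algebraMap R E r ^ m - algebraMap L E c ∈ V.nonunits →
        ∃ u : L, O.valuation u = 1 ∧ algebraMap R E r - algebraMap L E u ∈ V.nonunits) :
    ∀ y : E, V.valuation y = 1 → ∀ c : L, O.valuation c = 1 →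
      y ^ m - algebraMap L E c ∈ V.nonunits →
        ∃ u : L, O.valuation u = 1 ∧ y - algebraMap L E u ∈ V.nonunits := by
  intro y hy c hc hyc
  have hyV : y ∈ V := (V.valuation_le_one_iff y).1 hy.le
  obtain ⟨r, hr⟩ := hres y hyV
  have h1 : y ^ m - algebraMap R E r ^ m ∈ V.nonunits :=
    ssm_tw_nonunits_pow_sub V hyV (hmem r) hr m
  have h2 : algebraMap R E r ^ m - algebraMap L E c ∈ V.nonunits := by
    have e : algebraMap R E r ^ m - algebraMap L E c =
        (y ^ m - algebraMap L E c) - (y ^ m - algebraMap R E r ^ m) := by ring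
    rw [e]
    exact ssm_tw_nonunits_sub V hyc h1
  obtain ⟨u, hu, hru⟩ := hrootR r c hc h2
  refine ⟨u, hu, ?_⟩
  have e : y - algebraMap L E u = (y - algebraMap R E r) + (algebraMap R E r - algebraMap L E u) := by
    ring
  rw [e]
  exact ssm_tw_nonunits_add V hr hru

end Root

section Tower

variable {L K1 K2 E : Type*} [Field L] [Field K1] [Field K2] [Field E]
  [Algebra L E] [Algebra L K1] [Algebra L K2] [Algebra K1 E] [Algebra K2 E]
  [IsScalarTower L K1 E] [IsScalarTower L K2 E]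
  [FiniteDimensional K1 E] [Algebra.IsSeparable K1 E]
  [FiniteDimensional K2 E] [Algebra.IsSeparable K2 E]
  {RF : Type*} [CommRing RF] [IsDomain RF] [IsDiscreteValuationRing RF] [Algebra RF K1]
  [IsFractionRing RF K1] [Algebra RF E] [IsScalarTower RF K1 E]
  {RV : Type*} [CommRing RV] [IsDomain RV] [IsDiscreteValuationRing RV] [Algebra RV K1]
  [IsFractionRing RV K1] [Algebra RV E] [IsScalarTower RV K1 E]
  {RU : Type*} [CommRing RU] [IsDomain RU] [IsDiscreteValuationRing RU] [Algebra RU K2]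
  [IsFractionRing RU K2] [Algebra RU E] [IsScalarTower RU K2 E]
  {RG : Type*} [CommRing RG] [IsDomain RG] [IsDiscreteValuationRing RG] [Algebra RG K2]
  [IsFractionRing RG K2] [Algebra RG E] [IsScalarTower RG K2 E]

/-- **the tower-level valuation data.** -/
structure s36at_Tower (O : ValuationSubring L) (ϖ : L) (q : ℕ) (VA VB VC : ValuationSubring E)
    (πF : RF) (πV : RV) (πU : RU) (πG : RG) (zC zC' tB tA : E) (rB : RV) (rA : RG) : Prop where
  side1 : s36at_Side K1 RF RV q VA VB VC πF πV zC tB rB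
  side2 : s36at_Side K2 RU RG q VB VA VC πU πG zC' tA rA
  hVA : ∀ c : L, algebraMap L E c ∈ VA ↔ c ∈ O
  hVB : ∀ c : L, algebraMap L E c ∈ VB ↔ c ∈ O
  hπF : algebraMap RF E πF = algebraMap L E ϖ
  hπV : algebraMap RV E πV = algebraMap L E ϖ
  hπU : algebraMap RU E πU = algebraMap L E ϖ
  hπG : algebraMap RG E πG = algebraMap L E ϖ

variable {O : ValuationSubring L} {ϖ : L} {q : ℕ} {VA VB VC : ValuationSubring E}
  {πF : RF} {πV : RV} {πU : RU} {πG : RG} {zC zC' tB tA : E} {rB : RV} {rA : RG}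

namespace s36at_Tower

variable (T : s36at_Tower (K1 := K1) (K2 := K2) O ϖ q VA VB VC πF πV πU πG zC zC' tB tA rB rA)

include T

theorem two_le : 2 ≤ q := T.side1.two_le

theorem unifA : s36at_Unif VA (algebraMap L E ϖ) := by
  rw [← T.hπF]; exact T.side1.unifX

theorem unifB : s36at_Unif VB (algebraMap L E ϖ) := by
  rw [← T.hπV]; exact T.side1.unifY

theorem unifC : s36at_Unif VC zC := T.side1.unifC

theorem archA : s36wa_Arch VA := T.side1.archX

theorem archB : s36wa_Arch VB := T.side1.archY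

theorem archC : s36wa_Arch VC := T.side1.archC

theorem hoA : s36a_Ord VA (s36at_ord VA (algebraMap L E ϖ)) := s36at_isOrd T.unifA T.archA

theorem hoB : s36a_Ord VB (s36at_ord VB (algebraMap L E ϖ)) := s36at_isOrd T.unifB T.archB

theorem hoC : s36a_Ord VC (s36at_ord VC zC) := s36at_isOrd T.unifC T.archC

theorem hVC (c : L) : algebraMap L E c ∈ VC ↔ c ∈ O := by
  rw [IsScalarTower.algebraMap_apply L K1 E, ← T.side1.mem_iff,
    ← IsScalarTower.algebraMap_apply L K1 E]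
  exact T.hVA c

theorem hϖE : algebraMap L E ϖ ≠ 0 := T.unifA.ne_zero

theorem hϖ0 : ϖ ≠ 0 := fun h => T.hϖE (by rw [h, map_zero])

theorem hϖm : ϖ ∈ O.nonunits := (s36a_const_nonunit O VA T.hVA ϖ).1 T.unifA.mem

theorem hϖA : s36at_ord VA (algebraMap L E ϖ) (algebraMap L E ϖ) = 1 := s36at_ord_self T.unifA

theorem hϖB : s36at_ord VB (algebraMap L E ϖ) (algebraMap L E ϖ) = 1 := s36at_ord_self T.unifB

theorem hϖC : s36at_ord VC zC (algebraMap L E ϖ) = ((q : ℤ) - 1) * 1 := by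
  rw [← T.hπF, T.side1.ordC_pi, mul_one]

theorem hzC0 : zC ≠ 0 := T.unifC.ne_zero

theorem hzC : s36at_ord VC zC zC = 1 := s36at_ord_self T.unifC

/-- every nonzero constant is `ϖ ^ j · unit`. -/
theorem hϖO (c : L) (hc : c ≠ 0) : ∃ (j : ℤ) (u : L), O.valuation u = 1 ∧ c = ϖ ^ j * u := by
  have hcE : algebraMap L E c ≠ 0 := (map_ne_zero _).2 hc
  obtain ⟨j, hj⟩ := s36at_dec T.unifA T.archA (algebraMap L E c) hcE
  refine ⟨-j, c * ϖ ^ j, ?_, ?_⟩
  · have e : algebraMap L E c * algebraMap L E ϖ ^ j = algebraMap L E (c * ϖ ^ j) := by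
      rw [map_mul, map_zpow₀]
    rw [e] at hj
    have h0 : c * ϖ ^ j ≠ 0 := mul_ne_zero hc (zpow_ne_zero _ T.hϖ0)
    have h1 : c * ϖ ^ j ∈ O :=
      (T.hVA _).1 ((VA.valuation_le_one_iff _).1 hj.le)
    have h2 : (c * ϖ ^ j)⁻¹ ∈ O := by
      apply (T.hVA _).1
      rw [map_inv₀]
      apply (VA.valuation_le_one_iff _).1
      rw [map_inv₀, hj, inv_one]
    exact s36at_val_one_of_inv_mem h0 h1 h2
  · rw [zpow_neg, mul_comm c, ← mul_assoc, inv_mul_cancel₀ (zpow_ne_zero _ T.hϖ0), one_mul]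

theorem hN1A (x : E) (hx : x ≠ 0) :
    s36at_ord VA (algebraMap L E ϖ) (s36at_N K1 x) =
      s36at_ord VA (algebraMap L E ϖ) x + s36at_ord VC zC x := by
  rw [← T.hπF]; exact T.side1.ordX_norm x hx

theorem hN1B (x : E) (hx : x ≠ 0) :
    s36at_ord VB (algebraMap L E ϖ) (s36at_N K1 x) =
      (q : ℤ) * s36at_ord VB (algebraMap L E ϖ) x := by
  rw [← T.hπV]; exact T.side1.ordY_norm x hx

theorem hN2A (x : E) (hx : x ≠ 0) :
    s36at_ord VA (algebraMap L E ϖ) (s36at_N K2 x) =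
      (q : ℤ) * s36at_ord VA (algebraMap L E ϖ) x := by
  rw [← T.hπG]; exact T.side2.ordY_norm x hx

theorem hN2B (x : E) (hx : x ≠ 0) :
    s36at_ord VB (algebraMap L E ϖ) (s36at_N K2 x) =
      s36at_ord VB (algebraMap L E ϖ) x + s36at_ord VC zC x := by
  rw [← s36at_ord_eq_of_unif T.side1.unifC T.side2.unifC T.archC x, ← T.hπU]
  exact T.side2.ordX_norm x hx

theorem hNc1 (c : L) : s36at_N K1 (algebraMap L E c) = algebraMap L E c ^ q := by
  rw [IsScalarTower.algebraMap_apply L K1 E, s36at_N_algebraMap, T.side1.finrank_eq]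

theorem hNc2 (c : L) : s36at_N K2 (algebraMap L E c) = algebraMap L E c ^ q := by
  rw [IsScalarTower.algebraMap_apply L K2 E, s36at_N_algebraMap, T.side2.finrank_eq]

theorem hnA (x : E) (hA : VA.valuation x = 1) (hB : VB.valuation x = 1)
    (hC : VC.valuation x = 1) : s36at_N K2 x - x ^ q ∈ VA.nonunits :=
  T.side2.nY x ((VA.valuation_le_one_iff x).1 hA.le)

theorem hnB (x : E) (hA : VA.valuation x = 1) (hB : VB.valuation x = 1)
    (hC : VC.valuation x = 1) : s36at_N K1 x - x ^ q ∈ VB.nonunits :=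
  T.side1.nY x ((VB.valuation_le_one_iff x).1 hB.le)

/-- constants of `O` lift to `RF`. -/
theorem liftF (c : L) (hc : c ∈ O) : ∃ r : RF, algebraMap RF E r = algebraMap L E c := by
  have h1 : algebraMap K1 E (algebraMap L K1 c) ∈ VA := by
    rw [← IsScalarTower.algebraMap_apply L K1 E]
    exact (T.hVA c).2 hc
  obtain ⟨r, hr⟩ := (T.side1.overX _).1 h1
  exact ⟨r, by rw [IsScalarTower.algebraMap_apply RF K1 E, hr,
    ← IsScalarTower.algebraMap_apply L K1 E]⟩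

/-- constants of `O` lift to `RU`. -/
theorem liftU (c : L) (hc : c ∈ O) : ∃ r : RU, algebraMap RU E r = algebraMap L E c := by
  have h1 : algebraMap K2 E (algebraMap L K2 c) ∈ VB := by
    rw [← IsScalarTower.algebraMap_apply L K2 E]
    exact (T.hVB c).2 hc
  obtain ⟨r, hr⟩ := (T.side2.overX _).1 h1
  exact ⟨r, by rw [IsScalarTower.algebraMap_apply RU K2 E, hr,
    ← IsScalarTower.algebraMap_apply L K2 E]⟩

theorem hnC1 (x : E) (hA : VA.valuation x = 1) (hB : VB.valuation x = 1)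
    (hC : VC.valuation x = 1) (r : L) (hr : O.valuation r = 1)
    (hxr : x - algebraMap L E r ∈ VA.nonunits) :
    s36at_N K1 x - algebraMap L E r * x ^ (q - 1) ∈ VC.nonunits := by
  obtain ⟨r0, hr0⟩ := T.liftF r ((O.valuation_le_one_iff r).1 hr.le)
  rw [← hr0] at hxr ⊢
  exact T.side1.nC x ((VA.valuation_le_one_iff x).1 hA.le) ((VC.valuation_le_one_iff x).1 hC.le)
    r0 hxr

theorem hnC2 (x : E) (hA : VA.valuation x = 1) (hB : VB.valuation x = 1)
    (hC : VC.valuation x = 1) (r : L) (hr : O.valuation r = 1)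
    (hxr : x - algebraMap L E r ∈ VB.nonunits) :
    s36at_N K2 x - algebraMap L E r * x ^ (q - 1) ∈ VC.nonunits := by
  obtain ⟨r0, hr0⟩ := T.liftU r ((O.valuation_le_one_iff r).1 hr.le)
  rw [← hr0] at hxr ⊢
  exact T.side2.nC x ((VB.valuation_le_one_iff x).1 hB.le) ((VC.valuation_le_one_iff x).1 hC.le)
    r0 hxr

/-! ### incomparability and weak approximation -/

theorem ne_AC : VA ≠ VC := T.side1.ne_XC

theorem ne_BC : VB ≠ VC := T.side2.ne_XC

theorem ne_AB : VA ≠ VB := T.side1.ne_XY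

theorem hAB : ¬ VA ≤ VB := s36at_not_le T.archA T.ne_AB T.hϖE T.unifB.mem

theorem hBA : ¬ VB ≤ VA := s36at_not_le T.archB T.ne_AB.symm T.hϖE T.unifA.mem

theorem hAC : ¬ VA ≤ VC := s36at_not_le T.archA T.ne_AC T.hzC0 T.unifC.mem

theorem hCA : ¬ VC ≤ VA := s36at_not_le T.archC T.ne_AC.symm T.hϖE T.unifA.mem

theorem hBC : ¬ VB ≤ VC := s36at_not_le T.archB T.ne_BC T.hzC0 T.unifC.mem

theorem hCB : ¬ VC ≤ VB := s36at_not_le T.archC T.ne_BC.symm T.hϖE T.unifB.mem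

theorem hWA3 (x1 x2 x3 y1 y2 y3 : E) : ∃ x : E, (x - x1) * y1 ∈ VA.nonunits ∧
    (x - x2) * y2 ∈ VB.nonunits ∧ (x - x3) * y3 ∈ VC.nonunits :=
  s36wa_approx3 VA VB VC T.hAB T.hBA T.hAC T.hCA T.hBC T.hCB T.archA T.archB T.archC
    x1 x2 x3 y1 y2 y3

/-! ### the two subfields -/

theorem hN1K (x : E) : s36at_N K1 x ∈ (algebraMap K1 E).fieldRange := ⟨_, rfl⟩

theorem hN2K (x : E) : s36at_N K2 x ∈ (algebraMap K2 E).fieldRange := ⟨_, rfl⟩

theorem hCK1 (c : L) : algebraMap L E c ∈ (algebraMap K1 E).fieldRange :=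
  ⟨algebraMap L K1 c, (IsScalarTower.algebraMap_apply L K1 E c).symm⟩

theorem hCK2 (c : L) : algebraMap L E c ∈ (algebraMap K2 E).fieldRange :=
  ⟨algebraMap L K2 c, (IsScalarTower.algebraMap_apply L K2 E c).symm⟩

theorem hAC1 (y : E) (hy : y ∈ (algebraMap K1 E).fieldRange) :
    y ∈ VA.nonunits ↔ y ∈ VC.nonunits := by
  obtain ⟨k, rfl⟩ := hy
  exact T.side1.nonunits_iff k

theorem hBC2 (y : E) (hy : y ∈ (algebraMap K2 E).fieldRange) :
    y ∈ VB.nonunits ↔ y ∈ VC.nonunits := by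
  obtain ⟨k, rfl⟩ := hy
  exact T.side2.nonunits_iff k

end s36at_Tower

/-- **[ABEL3-TOWER], main theorem**: the conclusion of `s36a_vert_abel3` for the tower. -/
theorem s36at_main
    (T : s36at_Tower (K1 := K1) (K2 := K2) O ϖ q VA VB VC πF πV πU πG zC zC' tB tA rB rA)
    (m : ℕ) (hm : 1 ≤ m) (hqm : Nat.Coprime q m)
    (hroot : ∀ y : E, VC.valuation y = 1 → ∀ c : L, O.valuation c = 1 →
      y ^ m - algebraMap L E c ∈ VC.nonunits →
        ∃ u : L, O.valuation u = 1 ∧ y - algebraMap L E u ∈ VC.nonunits)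
    (g : E) (hg : g ≠ 0) (c1 c2 : L) (hc1 : c1 ≠ 0) (hc2 : c2 ≠ 0) (r1 r2 : E)
    (h1 : s36at_N K1 g = algebraMap L E c1 * r1 ^ m)
    (h2 : s36at_N K2 g = algebraMap L E c2 * r2 ^ m) :
    ∃ c : L, c ≠ 0 ∧ ∃ R g' : E, R ≠ 0 ∧ g' - 1 ∈ VA.nonunits ∧ g' - 1 ∈ VB.nonunits ∧
      g' - 1 ∈ VC.nonunits ∧
      g ^ ((q + 1) * (q ^ 2 - 1)) = algebraMap L E c * R ^ m * g' :=
  s36a_vert_abel3 O VA VB VC (s36at_N K1) (s36at_N K2) q m (by have := T.two_le; omega) hm hqm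
    (s36at_ord VA (algebraMap L E ϖ)) (s36at_ord VB (algebraMap L E ϖ)) (s36at_ord VC zC)
    T.hoA T.hoB T.hoC T.hVA T.hVB T.hVC ϖ T.hϖ0 T.hϖm 1 (by norm_num) T.hϖA T.hϖB T.hϖC
    zC T.hzC0 T.hzC T.hϖO T.hN1A T.hN1B T.hN2A T.hN2B T.hNc1 T.hNc2 T.hWA3 T.hnA T.hnB
    T.hnC1 T.hnC2 hroot g hg c1 c2 hc1 hc2 r1 r2 h1 h2

/-- **[ABEL3-TOWER] + [ACORE]**: the conclusion of helper1's `s36c_core` for the tower, from the
three (root) properties, the horizontal orders and the seam `hglue` ([GLUE-MAIN]).  The two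
subfields are `(algebraMap K1 E).fieldRange`, `(algebraMap K2 E).fieldRange`; `Eg` is the
exponent of the seam. -/
theorem s36at_core
    (T : s36at_Tower (K1 := K1) (K2 := K2) O ϖ q VA VB VC πF πV πU πG zC zC' tB tA rB rA)
    (m Eg : ℕ) (hm : 1 ≤ m) (hqm : Nat.Coprime q m)
    (hroot : ∀ y : E, VC.valuation y = 1 → ∀ c : L, O.valuation c = 1 →
      y ^ m - algebraMap L E c ∈ VC.nonunits →
        ∃ u : L, O.valuation u = 1 ∧ y - algebraMap L E u ∈ VC.nonunits)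
    (hrootA : ∀ y : E, VA.valuation y = 1 → ∀ c : L, O.valuation c = 1 →
      y ^ m - algebraMap L E c ∈ VA.nonunits →
        ∃ u : L, O.valuation u = 1 ∧ y - algebraMap L E u ∈ VA.nonunits)
    (hrootB : ∀ y : E, VB.valuation y = 1 → ∀ c : L, O.valuation c = 1 →
      y ^ m - algebraMap L E c ∈ VB.nonunits →
        ∃ u : L, O.valuation u = 1 ∧ y - algebraMap L E u ∈ VB.nonunits)
    {ι : Type*} (ordH : ι → E → ℤ)
    (hHmul : ∀ v (x y : E), x ≠ 0 → y ≠ 0 → ordH v (x * y) = ordH v x + ordH v y)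
    (hHC : ∀ v (c : L), c ≠ 0 → ordH v (algebraMap L E c) = 0)
    (hglue : ∀ f : E, f ≠ 0 → f - 1 ∈ VA.nonunits → f - 1 ∈ VB.nonunits → f - 1 ∈ VC.nonunits →
      (∀ v, (m : ℤ) ∣ ordH v f) →
      ∀ (c1 c2 : L) (h1 h2 : E), O.valuation c1 = 1 → O.valuation c2 = 1 → h1 ≠ 0 → h2 ≠ 0 →
        s36at_N K1 f = algebraMap L E c1 * h1 ^ m → s36at_N K2 f = algebraMap L E c2 * h2 ^ m →
      ∀ νF νV νG νU : L, O.valuation νF = 1 → O.valuation νV = 1 → O.valuation νG = 1 →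
        O.valuation νU = 1 →
        h1 - algebraMap L E νF ∈ VA.nonunits → h1 - algebraMap L E νF ∈ VC.nonunits →
        h1 - algebraMap L E νV ∈ VB.nonunits → h2 - algebraMap L E νG ∈ VA.nonunits →
        h2 - algebraMap L E νU ∈ VB.nonunits → h2 - algebraMap L E νU ∈ VC.nonunits →
        c1 * νF ^ m - 1 ∈ O.nonunits → c1 * νV ^ m - 1 ∈ O.nonunits →
        c2 * νG ^ m - 1 ∈ O.nonunits → c2 * νU ^ m - 1 ∈ O.nonunits →
      ∀ u₀ : E,
        u₀ - algebraMap L E ((νV * νU) ^ (q - 1) * (νF ^ q * νU)) ∈ VA.nonunits →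
        u₀ - algebraMap L E ((νF * νG) ^ (q - 1) * (νF ^ q * νU)) ∈ VB.nonunits →
        u₀ - algebraMap L E ((νV ^ q * νG) * (νF * νG) ^ (q - 1)) ∈ VC.nonunits →
      ∀ K : L, O.valuation K = 1 →
        f ^ (q ^ 2 - 1) * u₀ ^ m - algebraMap L E K ∈ VA.nonunits →
        f ^ (q ^ 2 - 1) * u₀ ^ m - algebraMap L E K ∈ VB.nonunits →
        f ^ (q ^ 2 - 1) * u₀ ^ m - algebraMap L E K ∈ VC.nonunits →
        ∃ (c : L) (r : E), c ≠ 0 ∧ r ≠ 0 ∧
          (f ^ (q ^ 2 - 1) * u₀ ^ m) ^ Eg = algebraMap L E c * r ^ m)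
    (g : E) (hg : g ≠ 0) (hgH : ∀ v, (m : ℤ) ∣ ordH v g)
    (c1 c2 : L) (hc1 : c1 ≠ 0) (hc2 : c2 ≠ 0) (r1 r2 : E)
    (hr1 : r1 ∈ (algebraMap K1 E).fieldRange) (hr2 : r2 ∈ (algebraMap K2 E).fieldRange)
    (h1 : s36at_N K1 g = algebraMap L E c1 * r1 ^ m)
    (h2 : s36at_N K2 g = algebraMap L E c2 * r2 ^ m) :
    ∃ (c : L) (r : E), c ≠ 0 ∧ r ≠ 0 ∧
      g ^ ((q + 1) * (q ^ 2 - 1) * ((q ^ 2 - 1) * Eg)) = algebraMap L E c * r ^ m :=
  s36c_core O VA VB VC (s36at_N K1) (s36at_N K2) (algebraMap K1 E).fieldRange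
    (algebraMap K2 E).fieldRange q m Eg (by have := T.two_le; omega) hm hqm
    (s36at_ord VA (algebraMap L E ϖ)) (s36at_ord VB (algebraMap L E ϖ)) (s36at_ord VC zC)
    T.hoA T.hoB T.hoC T.hVA T.hVB T.hVC ϖ T.hϖ0 T.hϖm 1 (by norm_num) T.hϖA T.hϖB T.hϖC
    zC T.hzC0 T.hzC T.hϖO T.hN1A T.hN1B T.hN2A T.hN2B T.hNc1 T.hNc2 T.hWA3 T.hnA T.hnB
    T.hnC1 T.hnC2 hroot hrootA hrootB T.hN1K T.hN2K T.hCK1 T.hCK2 T.hAC1 T.hBC2 ordH hHmul hHC
    hglue g hg hgH c1 c2 hc1 hc2 r1 r2 hr1 hr2 h1 h2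

end Tower

end Fermat.Agent.S36
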