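/-
Project S36 (Carayol), cell [ABEL3-TOWER] (helper11), part 5: THE TOWER PACKAGE AS helper1's
`s36c_G` (S36/ACore/Pack.lean).  Prefix `s36at_`.

* `s36at_G`       : `s36at_Tower … → (root) at VC, VA, VB → s36c_G O VA VB VC (s36at_N K1) (s36at_N K2)
                    (algebraMap K1 E).fieldRange (algebraMap K2 E).fieldRange q m ordA ordB ordC ϖ 1 zC`;
* `s36at_N_eq_normIncl`, `s36at_fieldRange_eq_sub` : for `E₁ ≤ E₂` intermediate fields of `L((X))`
  with the algebra structure `ssm_gi_algebra hle`, `s36at_N ↥E₁ = s36c_normIncl hle` and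
  `(algebraMap ↥E₁ ↥E₂).fieldRange = s36c_sub hle`;
* `s36at_G_incl`  : the `s36c_G` of `s36c_coreAt_of` / `s36c_h_coreAt_of` (S36/ACore/At.lean) VERBATIM
                    from a tower on `E₁, E₁' ≤ E₂` whose DVRs are valuation subrings of `E₁`, `E₁'`.
-/
import Mathlib
import Fermat.Agent.S36.ATower.Main
import Fermat.Agent.S36.ACore.At

set_option autoImplicit false
set_option linter.unusedSectionVars false
set_option linter.unusedVariables false
set_option linter.style.haveILetI false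
set_option maxHeartbeats 1000000

open Fermat.Agent.JT3 Fermat.Agent.SS IsLocalRing

namespace Fermat.Agent.S36

section Abstract

variable {L K1 K2 E : Type*} [Field L] [Field K1] [Field K2] [Field E]
  [Algebra L E] [Algebra L K1] [Algebra L K2] [Algebra K1 E] [Algebra K2 E]
  [IsScalarTower L K1 E] [IsScalarTower L K2 E]
  [FiniteDimensional K1 E] [Algebra.IsSeparable K1 E]
  [FiniteDimensional K2 E] [Algebra.IsSeparable K2 E]
  {RF : Type*} [CommRing RF] [IsDomain RF] [IsDiscreteValuationRing RF] [Algebra RF K1]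
  [IsFractionRing RF K1] [Algebra RF E] [IsScalarTower RF K1 E]
  {RV : Type*} [CommRing RV] [IsDomain RV] [IsDiscreteValuationRing RV] [Algebra RV K1]
  [IsFractionRing RV K1] [Algebra RV E] [IsScalarTower RV K1 E]
  {RU : Type*} [CommRing RU] [IsDomain RU] [IsDiscreteValuationRing RU] [Algebra RU K2]
  [IsFractionRing RU K2] [Algebra RU E] [IsScalarTower RU K2 E]
  {RG : Type*} [CommRing RG] [IsDomain RG] [IsDiscreteValuationRing RG] [Algebra RG K2]
  [IsFractionRing RG K2] [Algebra RG E] [IsScalarTower RG K2 E]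
  {O : ValuationSubring L} {ϖ : L} {q : ℕ} {VA VB VC : ValuationSubring E}
  {πF : RF} {πV : RV} {πU : RU} {πG : RG} {zC zC' tB tA : E} {rB : RV} {rA : RG}

/-- **the (G)-list of `s36c_core` from the tower.** -/
theorem s36at_G
    (T : s36at_Tower (K1 := K1) (K2 := K2) O ϖ q VA VB VC πF πV πU πG zC zC' tB tA rB rA)
    (m : ℕ)
    (hroot : ∀ y : E, VC.valuation y = 1 → ∀ c : L, O.valuation c = 1 →
      y ^ m - algebraMap L E c ∈ VC.nonunits →
        ∃ u : L, O.valuation u = 1 ∧ y - algebraMap L E u ∈ VC.nonunits)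
    (hrootA : ∀ y : E, VA.valuation y = 1 → ∀ c : L, O.valuation c = 1 →
      y ^ m - algebraMap L E c ∈ VA.nonunits →
        ∃ u : L, O.valuation u = 1 ∧ y - algebraMap L E u ∈ VA.nonunits)
    (hrootB : ∀ y : E, VB.valuation y = 1 → ∀ c : L, O.valuation c = 1 →
      y ^ m - algebraMap L E c ∈ VB.nonunits →
        ∃ u : L, O.valuation u = 1 ∧ y - algebraMap L E u ∈ VB.nonunits) :
    s36c_G O VA VB VC (s36at_N K1) (s36at_N K2) (algebraMap K1 E).fieldRange
      (algebraMap K2 E).fieldRange q m (s36at_ord VA (algebraMap L E ϖ))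
      (s36at_ord VB (algebraMap L E ϖ)) (s36at_ord VC zC) ϖ 1 zC where
  hoA := T.hoA
  hoB := T.hoB
  hoC := T.hoC
  hVA := T.hVA
  hVB := T.hVB
  hVC := T.hVC
  hϖ0 := T.hϖ0
  hϖm := T.hϖm
  hε := by norm_num
  hϖA := T.hϖA
  hϖB := T.hϖB
  hϖC := T.hϖC
  hzC0 := T.hzC0
  hzC := T.hzC
  hϖO := T.hϖO
  hN1A := T.hN1A
  hN1B := T.hN1B
  hN2A := T.hN2A
  hN2B := T.hN2B
  hNc1 := T.hNc1
  hNc2 := T.hNc2
  hWA3 := T.hWA3
  hnA := T.hnA
  hnB := T.hnB
  hnC1 := T.hnC1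
  hnC2 := T.hnC2
  hroot := hroot
  hrootA := hrootA
  hrootB := hrootB
  hN1K := T.hN1K
  hN2K := T.hN2K
  hCK1 := T.hCK1
  hCK2 := T.hCK2
  hAC1 := T.hAC1
  hBC2 := T.hBC2

end Abstract

section Incl

variable {L : Type*} [Field L] {E1 E1' E2 : IntermediateField L (LaurentSeries L)}

/-- with the algebra structure `ssm_gi_algebra hle`, `s36at_N ↥E₁` is helper1's
`s36c_normIncl hle`. -/
theorem s36at_N_eq_normIncl (hle : E1 ≤ E2) :
    (letI := ssm_gi_algebra hle; s36at_N (E := ↥E2) ↥E1) = s36c_normIncl hle := rfl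

/-- with the algebra structure `ssm_gi_algebra hle`, the range of `E₁ → E₂` is helper1's
`s36c_sub hle`. -/
theorem s36at_fieldRange_eq_sub (hle : E1 ≤ E2) :
    (letI := ssm_gi_algebra hle; (algebraMap ↥E1 ↥E2).fieldRange) = s36c_sub hle := by
  letI := ssm_gi_algebra hle
  ext z
  constructor
  · rintro ⟨y, rfl⟩
    exact s36c_mem_sub hle y
  · rintro ⟨y, rfl⟩
    exact ⟨y, rfl⟩

/-- **the `s36c_G` of `s36c_coreAt_of` / `s36c_h_coreAt_of` VERBATIM** from a tower on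
`E₁, E₁' ≤ E₂ ⊆ L((X))` whose four DVRs are valuation subrings `VF VV ⊆ E₁`, `VU VG ⊆ E₁'`, with the
algebra structures `ssm_gi_algebra` / `ssm_gi_algebraV`. -/
theorem s36at_G_incl [CharZero L] (hle : E1 ≤ E2) (hle' : E1' ≤ E2)
    (hfin : letI := ssm_gi_algebra hle; FiniteDimensional ↥E1 ↥E2)
    (hfin' : letI := ssm_gi_algebra hle'; FiniteDimensional ↥E1' ↥E2)
    (VF VV : ValuationSubring ↥E1) [IsDiscreteValuationRing ↥VF] [IsDiscreteValuationRing ↥VV]
    (VU VG : ValuationSubring ↥E1') [IsDiscreteValuationRing ↥VU] [IsDiscreteValuationRing ↥VG]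
    {O : ValuationSubring L} {ϖ : L} {q : ℕ} {VA VB VC : ValuationSubring ↥E2}
    {πF : ↥VF} {πV : ↥VV} {πU : ↥VU} {πG : ↥VG} {zC zC' tB tA : ↥E2} {rB : ↥VV} {rA : ↥VG}
    (T : letI := ssm_gi_algebra hle
      letI := ssm_gi_algebra hle'
      letI := ssm_gi_algebraV hle VF
      letI := ssm_gi_algebraV hle VV
      letI := ssm_gi_algebraV hle' VU
      letI := ssm_gi_algebraV hle' VG
      haveI := ssm_gi_isScalarTower hle VF
      haveI := ssm_gi_isScalarTower hle VV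
      haveI := ssm_gi_isScalarTower hle' VU
      haveI := ssm_gi_isScalarTower hle' VG
      haveI := ssm_gi_isScalarTower_base hle
      haveI := ssm_gi_isScalarTower_base hle'
      haveI := hfin
      haveI := hfin'
      haveI : Algebra.IsSeparable ↥E1 ↥E2 := ssm_gi_isSeparable
      haveI : Algebra.IsSeparable ↥E1' ↥E2 := ssm_gi_isSeparable
      s36at_Tower (K1 := ↥E1) (K2 := ↥E1') O ϖ q VA VB VC πF πV πU πG zC zC' tB tA rB rA)
    (m : ℕ)
    (hroot : ∀ y : ↥E2, VC.valuation y = 1 → ∀ c : L, O.valuation c = 1 →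
      y ^ m - algebraMap L ↥E2 c ∈ VC.nonunits →
        ∃ u : L, O.valuation u = 1 ∧ y - algebraMap L ↥E2 u ∈ VC.nonunits)
    (hrootA : ∀ y : ↥E2, VA.valuation y = 1 → ∀ c : L, O.valuation c = 1 →
      y ^ m - algebraMap L ↥E2 c ∈ VA.nonunits →
        ∃ u : L, O.valuation u = 1 ∧ y - algebraMap L ↥E2 u ∈ VA.nonunits)
    (hrootB : ∀ y : ↥E2, VB.valuation y = 1 → ∀ c : L, O.valuation c = 1 →
      y ^ m - algebraMap L ↥E2 c ∈ VB.nonunits →
        ∃ u : L, O.valuation u = 1 ∧ y - algebraMap L ↥E2 u ∈ VB.nonunits) :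
    s36c_G O VA VB VC (s36c_normIncl hle) (s36c_normIncl hle') (s36c_sub hle) (s36c_sub hle')
      q m (s36at_ord VA (algebraMap L ↥E2 ϖ)) (s36at_ord VB (algebraMap L ↥E2 ϖ))
      (s36at_ord VC zC) ϖ 1 zC := by
  letI := ssm_gi_algebra hle
  letI := ssm_gi_algebra hle'
  letI := ssm_gi_algebraV hle VF
  letI := ssm_gi_algebraV hle VV
  letI := ssm_gi_algebraV hle' VU
  letI := ssm_gi_algebraV hle' VG
  haveI := ssm_gi_isScalarTower hle VF
  haveI := ssm_gi_isScalarTower hle VV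
  haveI := ssm_gi_isScalarTower hle' VU
  haveI := ssm_gi_isScalarTower hle' VG
  haveI := ssm_gi_isScalarTower_base hle
  haveI := ssm_gi_isScalarTower_base hle'
  haveI := hfin
  haveI := hfin'
  haveI : Algebra.IsSeparable ↥E1 ↥E2 := ssm_gi_isSeparable
  haveI : Algebra.IsSeparable ↥E1' ↥E2 := ssm_gi_isSeparable
  have G := s36at_G T m hroot hrootA hrootB
  rw [s36at_fieldRange_eq_sub hle, s36at_fieldRange_eq_sub hle'] at G
  exact G

end Incl

section Legendre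

open ModularCurve AlgebraicCurve

variable {L : Type*} [Field L] [CharZero L] [Algebra L (AlgebraicClosure ℚ)]
  (N' q : ℕ) [NeZero N'] [NeZero q] (hq2 : ¬ 2 ∣ q)

/-- **`s36_CoreAt` (Legendre) from the tower, the three (root) properties and the seam
[GLUE-MAIN]**: `s36c_coreAt_of ∘ s36at_G_incl`. -/
theorem s36at_coreAt_leg
    (hfin : letI := ssm_gi_algebra (ssm_al_E_le L (N' * q) q)
      FiniteDimensional ↥(lg_E L (N' * q)) ↥(lg_E L (N' * q * q)))
    (hfin' : letI := ssm_gi_algebra (ssm_al_E_beta_le L (N' * q) q hq2)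
      FiniteDimensional ↥((lg_E L (N' * q)).map (qExpandAlgHomC L q)) ↥(lg_E L (N' * q * q)))
    (VF VV : ValuationSubring ↥(lg_E L (N' * q)))
    [IsDiscreteValuationRing ↥VF] [IsDiscreteValuationRing ↥VV]
    (VU VG : ValuationSubring ↥((lg_E L (N' * q)).map (qExpandAlgHomC L q)))
    [IsDiscreteValuationRing ↥VU] [IsDiscreteValuationRing ↥VG]
    {O : ValuationSubring L} {ϖ : L} {VA VB VC : ValuationSubring ↥(lg_E L (N' * q * q))}
    {πF : ↥VF} {πV : ↥VV} {πU : ↥VU} {πG : ↥VG} {zC zC' tB tA : ↥(lg_E L (N' * q * q))}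
    {rB : ↥VV} {rA : ↥VG}
    (T : letI := ssm_gi_algebra (ssm_al_E_le L (N' * q) q)
      letI := ssm_gi_algebra (ssm_al_E_beta_le L (N' * q) q hq2)
      letI := ssm_gi_algebraV (ssm_al_E_le L (N' * q) q) VF
      letI := ssm_gi_algebraV (ssm_al_E_le L (N' * q) q) VV
      letI := ssm_gi_algebraV (ssm_al_E_beta_le L (N' * q) q hq2) VU
      letI := ssm_gi_algebraV (ssm_al_E_beta_le L (N' * q) q hq2) VG
      haveI := ssm_gi_isScalarTower (ssm_al_E_le L (N' * q) q) VF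
      haveI := ssm_gi_isScalarTower (ssm_al_E_le L (N' * q) q) VV
      haveI := ssm_gi_isScalarTower (ssm_al_E_beta_le L (N' * q) q hq2) VU
      haveI := ssm_gi_isScalarTower (ssm_al_E_beta_le L (N' * q) q hq2) VG
      haveI := ssm_gi_isScalarTower_base (ssm_al_E_le L (N' * q) q)
      haveI := ssm_gi_isScalarTower_base (ssm_al_E_beta_le L (N' * q) q hq2)
      haveI := hfin
      haveI := hfin'
      haveI : Algebra.IsSeparable ↥(lg_E L (N' * q)) ↥(lg_E L (N' * q * q)) := ssm_gi_isSeparable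
      haveI : Algebra.IsSeparable ↥((lg_E L (N' * q)).map (qExpandAlgHomC L q))
        ↥(lg_E L (N' * q * q)) := ssm_gi_isSeparable
      s36at_Tower (K1 := ↥(lg_E L (N' * q)))
        (K2 := ↥((lg_E L (N' * q)).map (qExpandAlgHomC L q))) O ϖ q VA VB VC πF πV πU πG
        zC zC' tB tA rB rA)
    (m : ℕ) (hm : 1 ≤ m) (hqm : Nat.Coprime q m)
    (hroot : ∀ y : ↥(lg_E L (N' * q * q)), VC.valuation y = 1 → ∀ c : L, O.valuation c = 1 →
      y ^ m - algebraMap L ↥(lg_E L (N' * q * q)) c ∈ VC.nonunits →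
        ∃ u : L, O.valuation u = 1 ∧ y - algebraMap L ↥(lg_E L (N' * q * q)) u ∈ VC.nonunits)
    (hrootA : ∀ y : ↥(lg_E L (N' * q * q)), VA.valuation y = 1 → ∀ c : L, O.valuation c = 1 →
      y ^ m - algebraMap L ↥(lg_E L (N' * q * q)) c ∈ VA.nonunits →
        ∃ u : L, O.valuation u = 1 ∧ y - algebraMap L ↥(lg_E L (N' * q * q)) u ∈ VA.nonunits)
    (hrootB : ∀ y : ↥(lg_E L (N' * q * q)), VB.valuation y = 1 → ∀ c : L, O.valuation c = 1 →
      y ^ m - algebraMap L ↥(lg_E L (N' * q * q)) c ∈ VB.nonunits →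
        ∃ u : L, O.valuation u = 1 ∧ y - algebraMap L ↥(lg_E L (N' * q * q)) u ∈ VB.nonunits)
    (Eg : ℕ)
    (hglue : s36c_Glue O VA VB VC (s36c_normIncl (ssm_al_E_le L (N' * q) q))
      (s36c_normIncl (ssm_al_E_beta_le L (N' * q) q hq2)) q m Eg
      (fun (v : Place L ↥(lg_E L (N' * q * q))) => v.ord)) :
    s36_CoreAt (L := L) N' q hq2 m (s36c_exp q Eg) := by
  have hq : 1 ≤ q := Nat.one_le_iff_ne_zero.2 (NeZero.ne q)
  exact s36c_coreAt_of N' q hq2
    (s36at_G_incl (ssm_al_E_le L (N' * q) q) (ssm_al_E_beta_le L (N' * q) q hq2) hfin hfin'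
      VF VV VU VG T m hroot hrootA hrootB) hq hm hqm Eg hglue

end Legendre

section Hesse

open ModularCurve AlgebraicCurve

variable {L : Type*} [Field L] [CharZero L] [Algebra L (AlgebraicClosure ℚ)] (h3 : (3 : L) ≠ 0)
  (N' q : ℕ) [NeZero N'] [NeZero q] (hq3 : ¬ 3 ∣ q)

/-- **`s36h_CoreAt` (Hesse) from the tower, the three (root) properties and the seam
[GLUE-MAIN]**: `s36c_h_coreAt_of ∘ s36at_G_incl`. -/
theorem s36at_coreAt_hes
    (hfin : letI := ssm_gi_algebra (ssm_alh_E_le L h3 (ssm_fh_hF9 h3) (N' * q) q)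
      FiniteDimensional ↥(hs_E L h3 (N' * q)) ↥(hs_E L h3 (N' * q * q)))
    (hfin' : letI := ssm_gi_algebra (ssm_alh_E_beta_le L h3 (ssm_fh_hF9 h3) (N' * q) q hq3)
      FiniteDimensional ↥((hs_E L h3 (N' * q)).map (qExpandAlgHomC L q))
        ↥(hs_E L h3 (N' * q * q)))
    (VF VV : ValuationSubring ↥(hs_E L h3 (N' * q)))
    [IsDiscreteValuationRing ↥VF] [IsDiscreteValuationRing ↥VV]
    (VU VG : ValuationSubring ↥((hs_E L h3 (N' * q)).map (qExpandAlgHomC L q)))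
    [IsDiscreteValuationRing ↥VU] [IsDiscreteValuationRing ↥VG]
    {O : ValuationSubring L} {ϖ : L} {VA VB VC : ValuationSubring ↥(hs_E L h3 (N' * q * q))}
    {πF : ↥VF} {πV : ↥VV} {πU : ↥VU} {πG : ↥VG} {zC zC' tB tA : ↥(hs_E L h3 (N' * q * q))}
    {rB : ↥VV} {rA : ↥VG}
    (T : letI := ssm_gi_algebra (ssm_alh_E_le L h3 (ssm_fh_hF9 h3) (N' * q) q)
      letI := ssm_gi_algebra (ssm_alh_E_beta_le L h3 (ssm_fh_hF9 h3) (N' * q) q hq3)
      letI := ssm_gi_algebraV (ssm_alh_E_le L h3 (ssm_fh_hF9 h3) (N' * q) q) VF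
      letI := ssm_gi_algebraV (ssm_alh_E_le L h3 (ssm_fh_hF9 h3) (N' * q) q) VV
      letI := ssm_gi_algebraV (ssm_alh_E_beta_le L h3 (ssm_fh_hF9 h3) (N' * q) q hq3) VU
      letI := ssm_gi_algebraV (ssm_alh_E_beta_le L h3 (ssm_fh_hF9 h3) (N' * q) q hq3) VG
      haveI := ssm_gi_isScalarTower (ssm_alh_E_le L h3 (ssm_fh_hF9 h3) (N' * q) q) VF
      haveI := ssm_gi_isScalarTower (ssm_alh_E_le L h3 (ssm_fh_hF9 h3) (N' * q) q) VV
      haveI := ssm_gi_isScalarTower (ssm_alh_E_beta_le L h3 (ssm_fh_hF9 h3) (N' * q) q hq3) VU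
      haveI := ssm_gi_isScalarTower (ssm_alh_E_beta_le L h3 (ssm_fh_hF9 h3) (N' * q) q hq3) VG
      haveI := ssm_gi_isScalarTower_base (ssm_alh_E_le L h3 (ssm_fh_hF9 h3) (N' * q) q)
      haveI := ssm_gi_isScalarTower_base (ssm_alh_E_beta_le L h3 (ssm_fh_hF9 h3) (N' * q) q hq3)
      haveI := hfin
      haveI := hfin'
      haveI : Algebra.IsSeparable ↥(hs_E L h3 (N' * q)) ↥(hs_E L h3 (N' * q * q)) :=
        ssm_gi_isSeparable
      haveI : Algebra.IsSeparable ↥((hs_E L h3 (N' * q)).map (qExpandAlgHomC L q))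
        ↥(hs_E L h3 (N' * q * q)) := ssm_gi_isSeparable
      s36at_Tower (K1 := ↥(hs_E L h3 (N' * q)))
        (K2 := ↥((hs_E L h3 (N' * q)).map (qExpandAlgHomC L q))) O ϖ q VA VB VC πF πV πU πG
        zC zC' tB tA rB rA)
    (m : ℕ) (hm : 1 ≤ m) (hqm : Nat.Coprime q m)
    (hroot : ∀ y : ↥(hs_E L h3 (N' * q * q)), VC.valuation y = 1 → ∀ c : L, O.valuation c = 1 →
      y ^ m - algebraMap L ↥(hs_E L h3 (N' * q * q)) c ∈ VC.nonunits →
        ∃ u : L, O.valuation u = 1 ∧ y - algebraMap L ↥(hs_E L h3 (N' * q * q)) u ∈ VC.nonunits)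
    (hrootA : ∀ y : ↥(hs_E L h3 (N' * q * q)), VA.valuation y = 1 → ∀ c : L, O.valuation c = 1 →
      y ^ m - algebraMap L ↥(hs_E L h3 (N' * q * q)) c ∈ VA.nonunits →
        ∃ u : L, O.valuation u = 1 ∧ y - algebraMap L ↥(hs_E L h3 (N' * q * q)) u ∈ VA.nonunits)
    (hrootB : ∀ y : ↥(hs_E L h3 (N' * q * q)), VB.valuation y = 1 → ∀ c : L, O.valuation c = 1 →
      y ^ m - algebraMap L ↥(hs_E L h3 (N' * q * q)) c ∈ VB.nonunits →
        ∃ u : L, O.valuation u = 1 ∧ y - algebraMap L ↥(hs_E L h3 (N' * q * q)) u ∈ VB.nonunits)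
    (Eg : ℕ)
    (hglue : s36c_Glue O VA VB VC
      (s36c_normIncl (ssm_alh_E_le L h3 (ssm_fh_hF9 h3) (N' * q) q))
      (s36c_normIncl (ssm_alh_E_beta_le L h3 (ssm_fh_hF9 h3) (N' * q) q hq3)) q m Eg
      (fun (v : Place L ↥(hs_E L h3 (N' * q * q))) => v.ord)) :
    s36h_CoreAt (L := L) h3 N' q hq3 m (s36c_exp q Eg) := by
  have hq : 1 ≤ q := Nat.one_le_iff_ne_zero.2 (NeZero.ne q)
  exact s36c_h_coreAt_of h3 N' q hq3
    (s36at_G_incl (ssm_alh_E_le L h3 (ssm_fh_hF9 h3) (N' * q) q)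
      (ssm_alh_E_beta_le L h3 (ssm_fh_hF9 h3) (N' * q) q hq3) hfin hfin'
      VF VV VU VG T m hroot hrootA hrootB) hq hm hqm Eg hglue

end Hesse

end Fermat.Agent.S36
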