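/-
Project S36 (Carayol), cell [ABEL3-TOWER] / [L2]-FINAL (helper11): side 1 of the tower from
helper29's third-valuation package `s36t3_Third` (S36/Model/ThreeAbs.lean).  Prefix `s36at_`.

* `s36at_side_of_third` : `s36t3_Third K R q π z VX VC` + the one-valuation data `s36i_Data K R' q VY t r`
  + the norm hypothesis `N(z) · w = c`, `c ∉ 𝔪_R ^ 2` (helper8's `s36th_leg_hN` / `s36th_hes_hN`)
  ⟹ `s36at_Side K R R' q VX VY VC π π' z t r`.
-/
import Mathlib
import Fermat.Agent.S36.ATower.Side
import Fermat.Agent.S36.Model.ThreeAbs

set_option autoImplicit false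
set_option linter.unusedSectionVars false
set_option linter.unusedVariables false
set_option linter.style.haveILetI false

open Fermat.Agent.JT3 Fermat.Agent.SS IsLocalRing

namespace Fermat.Agent.S36

section Third

variable {K : Type*} {E : Type*} [Field K] [Field E] [Algebra K E] [FiniteDimensional K E]
  [Algebra.IsSeparable K E]
  {R : Type*} [CommRing R] [IsDomain R] [IsDiscreteValuationRing R] [Algebra R K]
  [IsFractionRing R K] [Algebra R E] [IsScalarTower R K E]
  {R' : Type*} [CommRing R'] [IsDomain R'] [IsDiscreteValuationRing R'] [Algebra R' K]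
  [IsFractionRing R' K] [Algebra R' E] [IsScalarTower R' K E]

/-- **side 1 from the third-valuation package.** -/
theorem s36at_side_of_third {q : ℕ} {VX VY VC : ValuationSubring E} {π : R} {π' : R'} {z t : E}
    {r : R'} (hq : 2 ≤ q) (hπ : Irreducible π) (hπ' : Irreducible π')
    (T3 : s36t3_Third K R q π z VX VC) (D : s36i_Data K R' q VY t r)
    (hN : ∃ c w : R, c ∉ maximalIdeal R ^ 2 ∧
      Algebra.norm K z * algebraMap R K w = algebraMap R K c) :
    s36at_Side K R R' q VX VY VC π π' z t r := by
  have hπE : algebraMap R E π ≠ 0 := by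
    intro h
    exact hπ.ne_zero (s36at_algebraMap_injective (K := K) (by rw [h, map_zero]))
  obtain ⟨u, hu, hu', hπu⟩ := T3.ramC
  have hu0 : u ≠ 0 := by
    rintro rfl
    rw [zero_mul] at hπu
    exact hπE hπu
  have hz0 : z ≠ 0 := by
    rintro rfl
    have h1 : q - 1 ≠ 0 := by omega
    rw [zero_pow h1, mul_zero] at hπu
    exact hπE hπu
  exact
    { two_le := hq
      finrank_eq := D.finrank_eq
      irr := hπ
      irr' := hπ'
      overX := T3.overA
      overC := T3.overC
      ne := T3.centre_ne
      map_eq := T3.map_eq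
      fX := T3.fA
      fC := T3.fC
      dataY := D
      unifC :=
        { ne_zero := hz0
          mem := T3.z_mem
          gen := fun a ha => (T3.unifC a).1 ha }
      zX := s36at_val_eq_one T3.z_unitA.1 T3.z_unitA.2
      ram := ⟨u, s36at_val_one_of_inv_mem hu0 hu hu', hπu⟩
      normz := hN }

end Third

end Fermat.Agent.S36
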