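/-
Project S36 (Carayol), cell [L2]-FINAL (helper11): THE `s36at_Tower` TERM FOR THE LEGENDRE TOWER.
Prefix `s36at_`.  [LEG-CTX] (`q ∤ 2 N'`), objects of helper26's `S36/Ins1/MirrorLeg.lean`:
`E₁ = lg_E L (N' q)`, `E₂ = lg_E L (N' q q)`, `β E₁ = E₁(X^q)`, `VF = ssm_gl_V1`, `VV = s36i_VV`,
`RU = s36i_RU`, `RG = s36i_RG`, `VA = s36i_VA`, `VB = s36i_VB`, `W₂ = s36i_W2`.

* `s36at_gauss_const_iff` : `algebraMap L E c ∈ Gauss(E) ↔ c ∈ O` (any `E ≤ Quot(O((X)))`);
* `s36at_leg_tower`       : side 1 (`s36t3_Third` over `VF` + (I-B) + `hN`) ⟹ the whole tower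
  (side 2 = helper26's `s36i_leg_side2`);
* `s36at_leg_coreAt`      : `s36_CoreAt` from the third-valuation package, `hN` and the seam
  [GLUE-MAIN] (the three (root) terms are helper24's `s36rt_leg_VA/_VB/_VC`).
-/
import Mathlib
import Fermat.Agent.S36.ATower.Third
import Fermat.Agent.S36.ATower.Pack
import Fermat.Agent.S36.Ins1.MirrorLeg
import Fermat.Agent.S36.Theta.HN
import Fermat.Agent.S36.Root.Leg

set_option autoImplicit false
set_option linter.unusedSectionVars false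
set_option linter.unusedVariables false
set_option linter.style.haveILetI false
set_option maxHeartbeats 1000000

noncomputable section

open ModularCurve IntermediateField IsLocalRing
open Fermat.Agent.JT3 Fermat.Agent.SS

namespace Fermat.Agent.S36

section Gauss

variable {L : Type*} [Field L] (O : ValuationSubring L) [IsDiscreteValuationRing O] {π : O}
  (hπ : Irreducible π) (E : IntermediateField L (LaurentSeries L)) (hE : E ≤ gq_quotField O L)

/-- the constants of the Gauss valuation ring of `E` are those of `O`. -/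
theorem s36at_gauss_const_iff (c : L) :
    algebraMap L ↥E c ∈ gq_valSubOf π hπ.ne_zero hπ.maximalIdeal_eq E hE ↔ c ∈ O := by
  constructor
  · intro h
    by_contra hc
    have hci : c⁻¹ ∈ O := (O.mem_or_inv_mem c).resolve_left hc
    have hnu : ¬ IsUnit (⟨c⁻¹, hci⟩ : ↥O) := by
      intro hu
      obtain ⟨v, hv⟩ := hu.exists_right_inv
      apply hc
      have h1 : c⁻¹ * (v : L) = 1 := congrArg (fun x : ↥O => (x : L)) hv
      have hc0 : c ≠ 0 := by
        rintro rfl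
        exact hc O.zero_mem
      have h2 : (v : L) = c := by
        field_simp at h1
        exact h1
      rw [← h2]
      exact v.2
    have hm : (⟨c⁻¹, hci⟩ : ↥O) ∈ maximalIdeal ↥O := (mem_maximalIdeal _).2 hnu
    rw [hπ.maximalIdeal_eq, Ideal.mem_span_singleton] at hm
    obtain ⟨d, hd⟩ := hm
    have hdL : c⁻¹ = (π : L) * (d : L) := congrArg (fun x : ↥O => (x : L)) hd
    have h1 : algebraMap L ↥E c⁻¹ ∈
        (gq_valSubOf π hπ.ne_zero hπ.maximalIdeal_eq E hE).nonunits := by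
      rw [hdL, map_mul, mul_comm]
      exact ssm_tw_nonunits_mul _ (s36th_const_mem π hπ.ne_zero hπ.maximalIdeal_eq E hE d)
        (gq_const_mem_nonunits π hπ.ne_zero hπ.maximalIdeal_eq E hE)
    rw [ssm_tw_nonunits_iff] at h1
    rcases h1.2 with h2 | h2
    · have hc0 : c ≠ 0 := by
        rintro rfl
        exact hc O.zero_mem
      rw [map_inv₀, inv_eq_zero, map_eq_zero] at h2
      exact hc0 h2
    · rw [map_inv₀, inv_inv] at h2
      exact h2 h
  · intro hc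
    exact s36th_const_mem π hπ.ne_zero hπ.maximalIdeal_eq E hE ⟨c, hc⟩

end Gauss

section Leg

variable {L : Type*} [Field L] [CharZero L] [Algebra L (AlgebraicClosure ℚ)]
  (O : ValuationSubring L) [IsDiscreteValuationRing O] {π : O} (hπ : Irreducible π)
variable (N' q : ℕ) [NeZero N'] [NeZero q] [hq : Fact q.Prime] [CharP (ResidueField O) q]
  (hq2 : ¬ 2 ∣ q) (hqN' : ¬ q ∣ N')

include hq hq2 in
/-- `[E₂ : E₁] = q` is finite. -/
theorem s36at_leg_fin1 :
    letI := ssm_gi_algebra (ssm_al_E_le L (N' * q) q)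
    FiniteDimensional ↥(lg_E L (N' * q)) ↥(lg_E L (N' * q * q)) := by
  letI := ssm_gi_algebra (ssm_al_E_le L (N' * q) q)
  have h : Module.finrank ↥(lg_E L (N' * q)) ↥(lg_E L (N' * q * q)) = (q - 1) + 1 := by
    rw [(ssm_gt_finrank_eq (ssm_al_E_le L (N' * q) q)).trans
      (s36pe_relfinrank_E L (N' * q) q hq.out hq2 (Dvd.intro_left N' rfl))]
    have := hq.out.two_le
    omega
  exact ssm_gi_finiteDimensional h

include hq in
/-- `[E₂ : β E₁] = q` is finite. -/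
theorem s36at_leg_fin2 :
    letI := ssm_gi_algebra (ssm_al_E_beta_le L (N' * q) q hq2)
    FiniteDimensional ↥((lg_E L (N' * q)).map (qExpandAlgHomC L q)) ↥(lg_E L (N' * q * q)) := by
  letI := ssm_gi_algebra (ssm_al_E_beta_le L (N' * q) q hq2)
  have h : Module.finrank ↥((lg_E L (N' * q)).map (qExpandAlgHomC L q))
      ↥(lg_E L (N' * q * q)) = (q - 1) + 1 := by
    rw [(ssm_gt_finrank_eq (ssm_al_E_beta_le L (N' * q) q hq2)).trans
      (s36pe_relfinrank_E_beta L (N' * q) q hq.out hq2 (Dvd.intro_left N' rfl))]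
    have := hq.out.two_le
    omega
  exact ssm_gi_finiteDimensional h

/-- the uniformiser `π` of `VF`. -/
abbrev s36at_leg_piF : ↥(ssm_gl_V1 O hπ N' q) :=
  gq_unif π hπ.ne_zero hπ.maximalIdeal_eq (lg_E L (N' * q)) (ssm_ga_E_le_quotField O (N' * q))

/-- the uniformiser `π` of `RG`. -/
abbrev s36at_leg_piG : ↥(s36i_RG O hπ (N' * q) q hq2) :=
  gq_unif π hπ.ne_zero hπ.maximalIdeal_eq ((lg_E L (N' * q)).map (qExpandAlgHomC L q))
    ((ssm_al_E_beta_le L (N' * q) q hq2).trans (ssm_ga_E_le_quotField O (N' * q * q)))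

/-- the uniformiser `π` of `VV`. -/
def s36at_leg_piV : ↥(s36i_VV O hπ N' q hq2 hqN') :=
  (s36i_wR O hπ N' q hq2 hqN').symm (s36at_leg_piG O hπ N' q hq2)

theorem s36at_leg_piF_irr : Irreducible (s36at_leg_piF O hπ N' q) :=
  ssm_ga_unif_irreducible π hπ.ne_zero hπ.maximalIdeal_eq _ _

theorem s36at_leg_piV_irr : Irreducible (s36at_leg_piV O hπ N' q hq2 hqN') :=
  (MulEquiv.irreducible_iff (s36i_wR O hπ N' q hq2 hqN').symm.toMulEquiv).2
    (ssm_ga_unif_irreducible π hπ.ne_zero hπ.maximalIdeal_eq _ _)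

/-- `hVA`: the constants of `VA`. -/
theorem s36at_leg_hVA (c : L) :
    algebraMap L ↥(lg_E L (N' * q * q)) c ∈ s36i_VA O hπ (N' * q) q ↔ c ∈ O :=
  s36at_gauss_const_iff O hπ _ _ c

/-- `hVB`: the constants of `VB = W₂(VA)`. -/
theorem s36at_leg_hVB (c : L) :
    algebraMap L ↥(lg_E L (N' * q * q)) c ∈ s36i_VB O hπ N' q hq2 hqN' ↔ c ∈ O := by
  rw [ValuationSubring.mem_comap]
  have h : (s36i_W2 L N' q hq2 hqN' : ↥(lg_E L (N' * q * q)) →+* ↥(lg_E L (N' * q * q)))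
      (algebraMap L ↥(lg_E L (N' * q * q)) c) = algebraMap L ↥(lg_E L (N' * q * q)) c :=
    (s36w_WE L N' q hq.out hq2 hqN').commutes c
  rw [h]
  exact s36at_leg_hVA O hπ N' q c

/-- **the Legendre tower**: from the third-valuation package over `VF` (helper29's
`s36t3_Third`) and the norm hypothesis `hN` (helper8's `s36th_leg_hN`). -/
theorem s36at_leg_tower {VC : ValuationSubring ↥(lg_E L (N' * q * q))}
    {z : ↥(lg_E L (N' * q * q))}
    (T3 :
      letI := ssm_gi_algebra (ssm_al_E_le L (N' * q) q)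
      letI := ssm_gi_algebraV (ssm_al_E_le L (N' * q) q) (ssm_gl_V1 O hπ N' q)
      letI := ssm_gi_algebraV (ssm_al_E_le L (N' * q) q) (s36i_VV O hπ N' q hq2 hqN')
      letI := ssm_gi_algebra (ssm_al_E_beta_le L (N' * q) q hq2)
      letI := ssm_gi_algebraV (ssm_al_E_beta_le L (N' * q) q hq2) (s36i_RU O hπ N' q hq2 hqN')
      letI := ssm_gi_algebraV (ssm_al_E_beta_le L (N' * q) q hq2) (s36i_RG O hπ (N' * q) q hq2)
      haveI := ssm_gi_isScalarTower (ssm_al_E_le L (N' * q) q) (ssm_gl_V1 O hπ N' q)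
      haveI := ssm_gi_isScalarTower (ssm_al_E_le L (N' * q) q) (s36i_VV O hπ N' q hq2 hqN')
      haveI := ssm_gi_isScalarTower (ssm_al_E_beta_le L (N' * q) q hq2)
        (s36i_RU O hπ N' q hq2 hqN')
      haveI := ssm_gi_isScalarTower (ssm_al_E_beta_le L (N' * q) q hq2)
        (s36i_RG O hπ (N' * q) q hq2)
      haveI := ssm_gi_isScalarTower_base (ssm_al_E_le L (N' * q) q)
      haveI := ssm_gi_isScalarTower_base (ssm_al_E_beta_le L (N' * q) q hq2)
      haveI := s36at_leg_fin1 (L := L) N' q hq2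
      haveI := s36at_leg_fin2 (L := L) N' q hq2
      haveI : Algebra.IsSeparable ↥(lg_E L (N' * q)) ↥(lg_E L (N' * q * q)) := ssm_gi_isSeparable
      haveI : Algebra.IsSeparable ↥((lg_E L (N' * q)).map (qExpandAlgHomC L q))
        ↥(lg_E L (N' * q * q)) := ssm_gi_isSeparable
      s36t3_Third ↥(lg_E L (N' * q)) ↥(ssm_gl_V1 O hπ N' q) q (s36at_leg_piF O hπ N' q) z
        (s36i_VA O hπ (N' * q) q) VC)
    (hN :
      letI := ssm_gi_algebra (ssm_al_E_le L (N' * q) q)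
      ∃ c w : ↥(ssm_gl_V1 O hπ N' q), c ∉ maximalIdeal ↥(ssm_gl_V1 O hπ N' q) ^ 2 ∧
        Algebra.norm ↥(lg_E L (N' * q)) z * (w : ↥(lg_E L (N' * q))) =
          (c : ↥(lg_E L (N' * q)))) :
    letI := ssm_gi_algebra (ssm_al_E_le L (N' * q) q)
    letI := ssm_gi_algebraV (ssm_al_E_le L (N' * q) q) (ssm_gl_V1 O hπ N' q)
    letI := ssm_gi_algebraV (ssm_al_E_le L (N' * q) q) (s36i_VV O hπ N' q hq2 hqN')
    letI := ssm_gi_algebra (ssm_al_E_beta_le L (N' * q) q hq2)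
    letI := ssm_gi_algebraV (ssm_al_E_beta_le L (N' * q) q hq2) (s36i_RU O hπ N' q hq2 hqN')
    letI := ssm_gi_algebraV (ssm_al_E_beta_le L (N' * q) q hq2) (s36i_RG O hπ (N' * q) q hq2)
    haveI := ssm_gi_isScalarTower (ssm_al_E_le L (N' * q) q) (ssm_gl_V1 O hπ N' q)
    haveI := ssm_gi_isScalarTower (ssm_al_E_le L (N' * q) q) (s36i_VV O hπ N' q hq2 hqN')
    haveI := ssm_gi_isScalarTower (ssm_al_E_beta_le L (N' * q) q hq2)
      (s36i_RU O hπ N' q hq2 hqN')
    haveI := ssm_gi_isScalarTower (ssm_al_E_beta_le L (N' * q) q hq2)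
      (s36i_RG O hπ (N' * q) q hq2)
    haveI := ssm_gi_isScalarTower_base (ssm_al_E_le L (N' * q) q)
    haveI := ssm_gi_isScalarTower_base (ssm_al_E_beta_le L (N' * q) q hq2)
    haveI := s36at_leg_fin1 (L := L) N' q hq2
    haveI := s36at_leg_fin2 (L := L) N' q hq2
    haveI : Algebra.IsSeparable ↥(lg_E L (N' * q)) ↥(lg_E L (N' * q * q)) := ssm_gi_isSeparable
    haveI : Algebra.IsSeparable ↥((lg_E L (N' * q)).map (qExpandAlgHomC L q))
      ↥(lg_E L (N' * q * q)) := ssm_gi_isSeparable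
    s36at_Tower (K1 := ↥(lg_E L (N' * q)))
      (K2 := ↥((lg_E L (N' * q)).map (qExpandAlgHomC L q))) O (π : L) q
      (s36i_VA O hπ (N' * q) q) (s36i_VB O hπ N' q hq2 hqN') VC
      (s36at_leg_piF O hπ N' q) (s36at_leg_piV O hπ N' q hq2 hqN')
      (s36i_wRF O hπ N' q hq2 hqN' (s36at_leg_piF O hπ N' q))
      (s36i_wR O hπ N' q hq2 hqN' (s36at_leg_piV O hπ N' q hq2 hqN'))
      z (s36i_W2 L N' q hq2 hqN' z) (s36i_lam2 L N' q hq2)
      (s36i_W2 L N' q hq2 hqN' (s36i_lam2 L N' q hq2)) (s36i_lam1V O hπ N' q hq2 hqN')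
      (s36i_wR O hπ N' q hq2 hqN' (s36i_lam1V O hπ N' q hq2 hqN')) := by
  letI := ssm_gi_algebra (ssm_al_E_le L (N' * q) q)
  letI := ssm_gi_algebraV (ssm_al_E_le L (N' * q) q) (ssm_gl_V1 O hπ N' q)
  letI := ssm_gi_algebraV (ssm_al_E_le L (N' * q) q) (s36i_VV O hπ N' q hq2 hqN')
  letI := ssm_gi_algebra (ssm_al_E_beta_le L (N' * q) q hq2)
  letI := ssm_gi_algebraV (ssm_al_E_beta_le L (N' * q) q hq2) (s36i_RU O hπ N' q hq2 hqN')
  letI := ssm_gi_algebraV (ssm_al_E_beta_le L (N' * q) q hq2) (s36i_RG O hπ (N' * q) q hq2)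
  haveI := ssm_gi_isScalarTower (ssm_al_E_le L (N' * q) q) (ssm_gl_V1 O hπ N' q)
  haveI := ssm_gi_isScalarTower (ssm_al_E_le L (N' * q) q) (s36i_VV O hπ N' q hq2 hqN')
  haveI := ssm_gi_isScalarTower (ssm_al_E_beta_le L (N' * q) q hq2)
    (s36i_RU O hπ N' q hq2 hqN')
  haveI := ssm_gi_isScalarTower (ssm_al_E_beta_le L (N' * q) q hq2)
    (s36i_RG O hπ (N' * q) q hq2)
  haveI := ssm_gi_isScalarTower_base (ssm_al_E_le L (N' * q) q)
  haveI := ssm_gi_isScalarTower_base (ssm_al_E_beta_le L (N' * q) q hq2)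
  haveI := s36at_leg_fin1 (L := L) N' q hq2
  haveI := s36at_leg_fin2 (L := L) N' q hq2
  haveI : Algebra.IsSeparable ↥(lg_E L (N' * q)) ↥(lg_E L (N' * q * q)) := ssm_gi_isSeparable
  haveI : Algebra.IsSeparable ↥((lg_E L (N' * q)).map (qExpandAlgHomC L q))
    ↥(lg_E L (N' * q * q)) := ssm_gi_isSeparable
  have DB := s36i_leg_dataB O hπ N' q hq2 hqN'
  have S1 : s36at_Side ↥(lg_E L (N' * q)) ↥(ssm_gl_V1 O hπ N' q)
      ↥(s36i_VV O hπ N' q hq2 hqN') q (s36i_VA O hπ (N' * q) q) (s36i_VB O hπ N' q hq2 hqN') VC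
      (s36at_leg_piF O hπ N' q) (s36at_leg_piV O hπ N' q hq2 hqN') z (s36i_lam2 L N' q hq2)
      (s36i_lam1V O hπ N' q hq2 hqN') :=
    s36at_side_of_third hq.out.two_le (s36at_leg_piF_irr O hπ N' q)
      (s36at_leg_piV_irr O hπ N' q hq2 hqN') T3 DB hN
  have S2 := s36i_leg_side2 O hπ N' q hq2 hqN' S1 T3.only
  have hW2c : ∀ c : L, s36i_W2 L N' q hq2 hqN' (algebraMap L ↥(lg_E L (N' * q * q)) c) =
      algebraMap L ↥(lg_E L (N' * q * q)) c :=
    fun c => (s36w_WE L N' q hq.out hq2 hqN').commutes c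
  have hF : algebraMap ↥(ssm_gl_V1 O hπ N' q) ↥(lg_E L (N' * q * q)) (s36at_leg_piF O hπ N' q) =
      algebraMap L ↥(lg_E L (N' * q * q)) (π : L) := rfl
  have hG : algebraMap ↥(s36i_RG O hπ (N' * q) q hq2) ↥(lg_E L (N' * q * q))
      (s36i_wR O hπ N' q hq2 hqN' (s36at_leg_piV O hπ N' q hq2 hqN')) =
      algebraMap L ↥(lg_E L (N' * q * q)) (π : L) := by
    unfold s36at_leg_piV
    rw [RingEquiv.apply_symm_apply]
    rfl
  refine
    { side1 := S1
      side2 := S2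
      hVA := s36at_leg_hVA O hπ N' q
      hVB := s36at_leg_hVB O hπ N' q hq2 hqN'
      hπF := hF
      hπV := ?_
      hπU := ?_
      hπG := hG }
  · apply (s36i_W2 L N' q hq2 hqN').injective
    rw [hW2c, ← s36i_algebraMap_wR O hπ N' q hq2 hqN']
    exact hG
  · rw [s36i_algebraMap_wRF O hπ N' q hq2 hqN', hF, hW2c]

/-- **`s36_CoreAt` for the Legendre tower** from the third-valuation package over `VF`, the norm
hypothesis `hN` and the seam [GLUE-MAIN].  The (root) properties are helper24's closed terms. -/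
theorem s36at_leg_coreAt {VC : ValuationSubring ↥(lg_E L (N' * q * q))}
    {z : ↥(lg_E L (N' * q * q))}
    (T3 :
      letI := ssm_gi_algebra (ssm_al_E_le L (N' * q) q)
      letI := ssm_gi_algebraV (ssm_al_E_le L (N' * q) q) (ssm_gl_V1 O hπ N' q)
      letI := ssm_gi_algebraV (ssm_al_E_le L (N' * q) q) (s36i_VV O hπ N' q hq2 hqN')
      letI := ssm_gi_algebra (ssm_al_E_beta_le L (N' * q) q hq2)
      letI := ssm_gi_algebraV (ssm_al_E_beta_le L (N' * q) q hq2) (s36i_RU O hπ N' q hq2 hqN')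
      letI := ssm_gi_algebraV (ssm_al_E_beta_le L (N' * q) q hq2) (s36i_RG O hπ (N' * q) q hq2)
      haveI := ssm_gi_isScalarTower (ssm_al_E_le L (N' * q) q) (ssm_gl_V1 O hπ N' q)
      haveI := ssm_gi_isScalarTower (ssm_al_E_le L (N' * q) q) (s36i_VV O hπ N' q hq2 hqN')
      haveI := ssm_gi_isScalarTower (ssm_al_E_beta_le L (N' * q) q hq2)
        (s36i_RU O hπ N' q hq2 hqN')
      haveI := ssm_gi_isScalarTower (ssm_al_E_beta_le L (N' * q) q hq2)
        (s36i_RG O hπ (N' * q) q hq2)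
      haveI := ssm_gi_isScalarTower_base (ssm_al_E_le L (N' * q) q)
      haveI := ssm_gi_isScalarTower_base (ssm_al_E_beta_le L (N' * q) q hq2)
      haveI := s36at_leg_fin1 (L := L) N' q hq2
      haveI := s36at_leg_fin2 (L := L) N' q hq2
      haveI : Algebra.IsSeparable ↥(lg_E L (N' * q)) ↥(lg_E L (N' * q * q)) := ssm_gi_isSeparable
      haveI : Algebra.IsSeparable ↥((lg_E L (N' * q)).map (qExpandAlgHomC L q))
        ↥(lg_E L (N' * q * q)) := ssm_gi_isSeparable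
      s36t3_Third ↥(lg_E L (N' * q)) ↥(ssm_gl_V1 O hπ N' q) q (s36at_leg_piF O hπ N' q) z
        (s36i_VA O hπ (N' * q) q) VC)
    (hN :
      letI := ssm_gi_algebra (ssm_al_E_le L (N' * q) q)
      ∃ c w : ↥(ssm_gl_V1 O hπ N' q), c ∉ maximalIdeal ↥(ssm_gl_V1 O hπ N' q) ^ 2 ∧
        Algebra.norm ↥(lg_E L (N' * q)) z * (w : ↥(lg_E L (N' * q))) =
          (c : ↥(lg_E L (N' * q))))
    (m : ℕ) (hm : 1 ≤ m) (hqm : Nat.Coprime q m) (hmO : (m : ResidueField O) ≠ 0) (Eg : ℕ)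
    (hglue : s36c_Glue O (s36i_VA O hπ (N' * q) q) (s36i_VB O hπ N' q hq2 hqN') VC
      (s36c_normIncl (ssm_al_E_le L (N' * q) q))
      (s36c_normIncl (ssm_al_E_beta_le L (N' * q) q hq2)) q m Eg
      (fun (v : AlgebraicCurve.Place L ↥(lg_E L (N' * q * q))) => v.ord)) :
    s36_CoreAt (L := L) N' q hq2 m (s36c_exp q Eg) := by
  letI := ssm_gi_algebra (ssm_al_E_le L (N' * q) q)
  letI := ssm_gi_algebraV (ssm_al_E_le L (N' * q) q) (ssm_gl_V1 O hπ N' q)
  letI := ssm_gi_algebraV (ssm_al_E_le L (N' * q) q) (s36i_VV O hπ N' q hq2 hqN')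
  letI := ssm_gi_algebra (ssm_al_E_beta_le L (N' * q) q hq2)
  letI := ssm_gi_algebraV (ssm_al_E_beta_le L (N' * q) q hq2) (s36i_RU O hπ N' q hq2 hqN')
  letI := ssm_gi_algebraV (ssm_al_E_beta_le L (N' * q) q hq2) (s36i_RG O hπ (N' * q) q hq2)
  haveI := ssm_gi_isScalarTower (ssm_al_E_le L (N' * q) q) (ssm_gl_V1 O hπ N' q)
  haveI := ssm_gi_isScalarTower (ssm_al_E_le L (N' * q) q) (s36i_VV O hπ N' q hq2 hqN')
  haveI := ssm_gi_isScalarTower (ssm_al_E_beta_le L (N' * q) q hq2)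
    (s36i_RU O hπ N' q hq2 hqN')
  haveI := ssm_gi_isScalarTower (ssm_al_E_beta_le L (N' * q) q hq2)
    (s36i_RG O hπ (N' * q) q hq2)
  haveI := ssm_gi_isScalarTower_base (ssm_al_E_le L (N' * q) q)
  haveI := ssm_gi_isScalarTower_base (ssm_al_E_beta_le L (N' * q) q hq2)
  haveI := s36at_leg_fin1 (L := L) N' q hq2
  haveI := s36at_leg_fin2 (L := L) N' q hq2
  haveI : Algebra.IsSeparable ↥(lg_E L (N' * q)) ↥(lg_E L (N' * q * q)) := ssm_gi_isSeparable
  haveI : Algebra.IsSeparable ↥((lg_E L (N' * q)).map (qExpandAlgHomC L q))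
    ↥(lg_E L (N' * q * q)) := ssm_gi_isSeparable
  have T := s36at_leg_tower O hπ N' q hq2 hqN' T3 hN
  have hVC : ∀ y : ↥(lg_E L (N' * q)),
      IntermediateField.inclusion (s36w_E_le1 L N' q) y ∈ VC ↔ y ∈ ssm_gl_V1 O hπ N' q := by
    intro y
    have h := T3.overC y
    rw [ssm_gi_mem_range] at h
    exact h
  have hres : ∀ a ∈ VC, ∃ r : ↥(lg_E L (N' * q)),
      a - IntermediateField.inclusion (s36w_E_le1 L N' q) r ∈ VC.nonunits := by
    intro a ha
    obtain ⟨r, hr⟩ := T3.resC a ha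
    exact ⟨(r : ↥(lg_E L (N' * q))), hr⟩
  exact s36at_coreAt_leg N' q hq2 (s36at_leg_fin1 (L := L) N' q hq2)
    (s36at_leg_fin2 (L := L) N' q hq2) (ssm_gl_V1 O hπ N' q) (s36i_VV O hπ N' q hq2 hqN')
    (s36i_RU O hπ N' q hq2 hqN') (s36i_RG O hπ (N' * q) q hq2) T m hm hqm
    (s36rt_leg_VC O hπ N' q m hmO VC hVC hres) (s36rt_leg_VA O hπ N' q m hmO)
    (s36rt_leg_VB O hπ N' q hq2 hqN' m hmO) Eg hglue

/-- **`s36_CoreAt` for the Legendre tower over an unramified base** (`q = π · unit` in `O`), with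
`z = λ(X^{q q}) - λ` and helper8's `s36th_leg_hN` plugged: the only inputs left are the
third-valuation package over `VF` for this `z` and the seam [GLUE-MAIN]. -/
theorem s36at_leg_coreAt_unram (u : ↥O) (hu : IsUnit u) (hqu : ((q : ℕ) : ↥O) = π * u)
    {VC : ValuationSubring ↥(lg_E L (N' * q * q))}
    (T3 :
      letI := ssm_gi_algebra (ssm_al_E_le L (N' * q) q)
      letI := ssm_gi_algebraV (ssm_al_E_le L (N' * q) q) (ssm_gl_V1 O hπ N' q)
      letI := ssm_gi_algebraV (ssm_al_E_le L (N' * q) q) (s36i_VV O hπ N' q hq2 hqN')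
      letI := ssm_gi_algebra (ssm_al_E_beta_le L (N' * q) q hq2)
      letI := ssm_gi_algebraV (ssm_al_E_beta_le L (N' * q) q hq2) (s36i_RU O hπ N' q hq2 hqN')
      letI := ssm_gi_algebraV (ssm_al_E_beta_le L (N' * q) q hq2) (s36i_RG O hπ (N' * q) q hq2)
      haveI := ssm_gi_isScalarTower (ssm_al_E_le L (N' * q) q) (ssm_gl_V1 O hπ N' q)
      haveI := ssm_gi_isScalarTower (ssm_al_E_le L (N' * q) q) (s36i_VV O hπ N' q hq2 hqN')
      haveI := ssm_gi_isScalarTower (ssm_al_E_beta_le L (N' * q) q hq2)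
        (s36i_RU O hπ N' q hq2 hqN')
      haveI := ssm_gi_isScalarTower (ssm_al_E_beta_le L (N' * q) q hq2)
        (s36i_RG O hπ (N' * q) q hq2)
      haveI := ssm_gi_isScalarTower_base (ssm_al_E_le L (N' * q) q)
      haveI := ssm_gi_isScalarTower_base (ssm_al_E_beta_le L (N' * q) q hq2)
      haveI := s36at_leg_fin1 (L := L) N' q hq2
      haveI := s36at_leg_fin2 (L := L) N' q hq2
      haveI : Algebra.IsSeparable ↥(lg_E L (N' * q)) ↥(lg_E L (N' * q * q)) := ssm_gi_isSeparable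
      haveI : Algebra.IsSeparable ↥((lg_E L (N' * q)).map (qExpandAlgHomC L q))
        ↥(lg_E L (N' * q * q)) := ssm_gi_isSeparable
      s36t3_Third ↥(lg_E L (N' * q)) ↥(ssm_gl_V1 O hπ N' q) q (s36at_leg_piF O hπ N' q)
        (s36th_lam2 L N' q hq2 hqN' -
          algebraMap ↥(lg_E L (N' * q)) ↥(lg_E L (N' * q * q)) (lg_lamE (N' * q)))
        (s36i_VA O hπ (N' * q) q) VC)
    (m : ℕ) (hm : 1 ≤ m) (hqm : Nat.Coprime q m) (hmO : (m : ResidueField O) ≠ 0) (Eg : ℕ)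
    (hglue : s36c_Glue O (s36i_VA O hπ (N' * q) q) (s36i_VB O hπ N' q hq2 hqN') VC
      (s36c_normIncl (ssm_al_E_le L (N' * q) q))
      (s36c_normIncl (ssm_al_E_beta_le L (N' * q) q hq2)) q m Eg
      (fun (v : AlgebraicCurve.Place L ↥(lg_E L (N' * q * q))) => v.ord)) :
    s36_CoreAt (L := L) N' q hq2 m (s36c_exp q Eg) :=
  s36at_leg_coreAt O hπ N' q hq2 hqN' T3 (s36th_leg_hN O hπ N' q hq2 hqN' u hu hqu)
    m hm hqm hmO Eg hglue

end Leg

end Fermat.Agent.S36
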