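/-
Project S36 (Carayol), cell [L2]-FINAL (helper11): THE `s36at_Tower` TERM FOR THE HESSE TOWER.
Prefix `s36at_`.  Hesse twin of `S36/ATower/Leg.lean`.  [HES-CTX] (`q ∤ 3 N'`), objects of
helper26's `S36/Ins1/MirrorHes.lean`: `E₁ = hs_E L h3 (N' q)`, `E₂ = hs_E L h3 (N' q q)`,
`β E₁ = E₁(X^q)`, `VF = ssm_fh_V1`, `VV = s36ih_VV`, `RU = s36ih_RU`, `RG = s36ih_RG`,
`VA = s36ih_VA`, `VB = s36ih_VB`, `W₂ = s36ih_W2`.

* `s36at_hes_tower`       : side 1 (`s36t3_Third` over `VF` + (I-B)-H + `hN`) ⟹ the whole tower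
  (side 2 = helper26's `s36ih_hes_side2`); its conclusion is helper1's `s36asmh_Tower` verbatim;
* `s36at_hes_coreAt`      : `s36h_CoreAt` from the third-valuation package, `hN` and the seam
  [GLUE-MAIN] (the three (root) terms are helper24's `s36rt_hes_VA/_VB/_VC`).
-/
import Mathlib
import Fermat.Agent.S36.ATower.Third
import Fermat.Agent.S36.ATower.Pack
import Fermat.Agent.S36.ATower.Leg
import Fermat.Agent.S36.Ins1.MirrorHes
import Fermat.Agent.S36.Theta.HN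
import Fermat.Agent.S36.Root.Hes

set_option autoImplicit false
set_option linter.unusedSectionVars false
set_option linter.unusedVariables false
set_option linter.style.haveILetI false
set_option maxHeartbeats 1000000

noncomputable section

open ModularCurve IntermediateField IsLocalRing
open Fermat.Agent.JT3 Fermat.Agent.SS

namespace Fermat.Agent.S36

section Hes

variable {L : Type*} [Field L] [CharZero L] [Algebra L (AlgebraicClosure ℚ)] (h3 : (3 : L) ≠ 0)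
  (O : ValuationSubring L) [IsDiscreteValuationRing O] (h3O : IsUnit (3 : O)) {π : O}
  (hπ : Irreducible π)
variable (N' q : ℕ) [NeZero N'] [NeZero q] [hq : Fact q.Prime] [CharP (ResidueField O) q]
  (hq3 : ¬ 3 ∣ q) (hqN' : ¬ q ∣ N')

include hq hq3 in
/-- `[E₂ : E₁] = q` is finite. -/
theorem s36at_hes_fin1 :
    letI := ssm_gi_algebra (ssm_alh_E_le L h3 (ssm_fh_hF9 h3) (N' * q) q)
    FiniteDimensional ↥(hs_E L h3 (N' * q)) ↥(hs_E L h3 (N' * q * q)) := by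
  letI := ssm_gi_algebra (ssm_alh_E_le L h3 (ssm_fh_hF9 h3) (N' * q) q)
  have h : Module.finrank ↥(hs_E L h3 (N' * q)) ↥(hs_E L h3 (N' * q * q)) = (q - 1) + 1 := by
    rw [(ssm_gt_finrank_eq (ssm_alh_E_le L h3 (ssm_fh_hF9 h3) (N' * q) q)).trans
      (s36pe_relfinrank_EH L h3 (N' * q) q hq.out hq3 (Dvd.intro_left N' rfl))]
    have := hq.out.two_le
    omega
  exact ssm_gi_finiteDimensional h

include hq in
/-- `[E₂ : β E₁] = q` is finite. -/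
theorem s36at_hes_fin2 :
    letI := ssm_gi_algebra (ssm_alh_E_beta_le L h3 (ssm_fh_hF9 h3) (N' * q) q hq3)
    FiniteDimensional ↥((hs_E L h3 (N' * q)).map (qExpandAlgHomC L q)) ↥(hs_E L h3 (N' * q * q)) := by
  letI := ssm_gi_algebra (ssm_alh_E_beta_le L h3 (ssm_fh_hF9 h3) (N' * q) q hq3)
  have h : Module.finrank ↥((hs_E L h3 (N' * q)).map (qExpandAlgHomC L q))
      ↥(hs_E L h3 (N' * q * q)) = (q - 1) + 1 := by
    rw [(ssm_gt_finrank_eq (ssm_alh_E_beta_le L h3 (ssm_fh_hF9 h3) (N' * q) q hq3)).trans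
      (s36pe_relfinrank_EH_beta L h3 (N' * q) q hq.out hq3 (Dvd.intro_left N' rfl))]
    have := hq.out.two_le
    omega
  exact ssm_gi_finiteDimensional h

/-- the uniformiser `π` of `VF`. -/
abbrev s36at_hes_piF : ↥(ssm_fh_V1 h3 O h3O hπ N' q) :=
  gq_unif π hπ.ne_zero hπ.maximalIdeal_eq (hs_E L h3 (N' * q)) (hsa_E_le_quotField h3 O (N' * q) h3O)

/-- the uniformiser `π` of `RG`. -/
abbrev s36at_hes_piG : ↥(s36ih_RG h3 O h3O hπ (N' * q) q hq3) :=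
  gq_unif π hπ.ne_zero hπ.maximalIdeal_eq ((hs_E L h3 (N' * q)).map (qExpandAlgHomC L q))
    ((ssm_alh_E_beta_le L h3 (ssm_fh_hF9 h3) (N' * q) q hq3).trans (hsa_E_le_quotField h3 O (N' * q * q) h3O))

/-- the uniformiser `π` of `VV`. -/
def s36at_hes_piV : ↥(s36ih_VV h3 O h3O hπ N' q hq3 hqN') :=
  (s36ih_wR h3 O h3O hπ N' q hq3 hqN').symm (s36at_hes_piG h3 O h3O hπ N' q hq3)

theorem s36at_hes_piF_irr : Irreducible (s36at_hes_piF h3 O h3O hπ N' q) :=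
  ssm_ga_unif_irreducible π hπ.ne_zero hπ.maximalIdeal_eq _ _

theorem s36at_hes_piV_irr : Irreducible (s36at_hes_piV h3 O h3O hπ N' q hq3 hqN') :=
  (MulEquiv.irreducible_iff (s36ih_wR h3 O h3O hπ N' q hq3 hqN').symm.toMulEquiv).2
    (ssm_ga_unif_irreducible π hπ.ne_zero hπ.maximalIdeal_eq _ _)

/-- `hVA`: the constants of `VA`. -/
theorem s36at_hes_hVA (c : L) :
    algebraMap L ↥(hs_E L h3 (N' * q * q)) c ∈ s36ih_VA h3 O h3O hπ (N' * q) q ↔ c ∈ O :=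
  s36at_gauss_const_iff O hπ _ _ c

/-- `hVB`: the constants of `VB = W₂(VA)`. -/
theorem s36at_hes_hVB (c : L) :
    algebraMap L ↥(hs_E L h3 (N' * q * q)) c ∈ s36ih_VB h3 O h3O hπ N' q hq3 hqN' ↔ c ∈ O := by
  rw [ValuationSubring.mem_comap]
  have h : (s36ih_W2 h3 N' q hq3 hqN' : ↥(hs_E L h3 (N' * q * q)) →+* ↥(hs_E L h3 (N' * q * q)))
      (algebraMap L ↥(hs_E L h3 (N' * q * q)) c) = algebraMap L ↥(hs_E L h3 (N' * q * q)) c :=
    (s36w_h_WE L h3 (ssm_fh_hF9 h3) N' q hq.out hq3 hqN').commutes c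
  rw [h]
  exact s36at_hes_hVA h3 O h3O hπ N' q c

/-- **the Hesse tower**: from the third-valuation package over `VF` (helper29's
`s36t3_Third`) and the norm hypothesis `hN` (helper8's `s36th_hes_hN`). -/
theorem s36at_hes_tower {VC : ValuationSubring ↥(hs_E L h3 (N' * q * q))}
    {z : ↥(hs_E L h3 (N' * q * q))}
    (T3 :
      letI := ssm_gi_algebra (ssm_alh_E_le L h3 (ssm_fh_hF9 h3) (N' * q) q)
      letI := ssm_gi_algebraV (ssm_alh_E_le L h3 (ssm_fh_hF9 h3) (N' * q) q) (ssm_fh_V1 h3 O h3O hπ N' q)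
      letI := ssm_gi_algebraV (ssm_alh_E_le L h3 (ssm_fh_hF9 h3) (N' * q) q) (s36ih_VV h3 O h3O hπ N' q hq3 hqN')
      letI := ssm_gi_algebra (ssm_alh_E_beta_le L h3 (ssm_fh_hF9 h3) (N' * q) q hq3)
      letI := ssm_gi_algebraV (ssm_alh_E_beta_le L h3 (ssm_fh_hF9 h3) (N' * q) q hq3) (s36ih_RU h3 O h3O hπ N' q hq3 hqN')
      letI := ssm_gi_algebraV (ssm_alh_E_beta_le L h3 (ssm_fh_hF9 h3) (N' * q) q hq3) (s36ih_RG h3 O h3O hπ (N' * q) q hq3)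
      haveI := ssm_gi_isScalarTower (ssm_alh_E_le L h3 (ssm_fh_hF9 h3) (N' * q) q) (ssm_fh_V1 h3 O h3O hπ N' q)
      haveI := ssm_gi_isScalarTower (ssm_alh_E_le L h3 (ssm_fh_hF9 h3) (N' * q) q) (s36ih_VV h3 O h3O hπ N' q hq3 hqN')
      haveI := ssm_gi_isScalarTower (ssm_alh_E_beta_le L h3 (ssm_fh_hF9 h3) (N' * q) q hq3)
        (s36ih_RU h3 O h3O hπ N' q hq3 hqN')
      haveI := ssm_gi_isScalarTower (ssm_alh_E_beta_le L h3 (ssm_fh_hF9 h3) (N' * q) q hq3)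
        (s36ih_RG h3 O h3O hπ (N' * q) q hq3)
      haveI := ssm_gi_isScalarTower_base (ssm_alh_E_le L h3 (ssm_fh_hF9 h3) (N' * q) q)
      haveI := ssm_gi_isScalarTower_base (ssm_alh_E_beta_le L h3 (ssm_fh_hF9 h3) (N' * q) q hq3)
      haveI := s36at_hes_fin1 (L := L) h3 N' q hq3
      haveI := s36at_hes_fin2 (L := L) h3 N' q hq3
      haveI : Algebra.IsSeparable ↥(hs_E L h3 (N' * q)) ↥(hs_E L h3 (N' * q * q)) := ssm_gi_isSeparable
      haveI : Algebra.IsSeparable ↥((hs_E L h3 (N' * q)).map (qExpandAlgHomC L q))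
        ↥(hs_E L h3 (N' * q * q)) := ssm_gi_isSeparable
      s36t3_Third ↥(hs_E L h3 (N' * q)) ↥(ssm_fh_V1 h3 O h3O hπ N' q) q (s36at_hes_piF h3 O h3O hπ N' q) z
        (s36ih_VA h3 O h3O hπ (N' * q) q) VC)
    (hN :
      letI := ssm_gi_algebra (ssm_alh_E_le L h3 (ssm_fh_hF9 h3) (N' * q) q)
      ∃ c w : ↥(ssm_fh_V1 h3 O h3O hπ N' q), c ∉ maximalIdeal ↥(ssm_fh_V1 h3 O h3O hπ N' q) ^ 2 ∧
        Algebra.norm ↥(hs_E L h3 (N' * q)) z * (w : ↥(hs_E L h3 (N' * q))) =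
          (c : ↥(hs_E L h3 (N' * q)))) :
    letI := ssm_gi_algebra (ssm_alh_E_le L h3 (ssm_fh_hF9 h3) (N' * q) q)
    letI := ssm_gi_algebraV (ssm_alh_E_le L h3 (ssm_fh_hF9 h3) (N' * q) q) (ssm_fh_V1 h3 O h3O hπ N' q)
    letI := ssm_gi_algebraV (ssm_alh_E_le L h3 (ssm_fh_hF9 h3) (N' * q) q) (s36ih_VV h3 O h3O hπ N' q hq3 hqN')
    letI := ssm_gi_algebra (ssm_alh_E_beta_le L h3 (ssm_fh_hF9 h3) (N' * q) q hq3)
    letI := ssm_gi_algebraV (ssm_alh_E_beta_le L h3 (ssm_fh_hF9 h3) (N' * q) q hq3) (s36ih_RU h3 O h3O hπ N' q hq3 hqN')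
    letI := ssm_gi_algebraV (ssm_alh_E_beta_le L h3 (ssm_fh_hF9 h3) (N' * q) q hq3) (s36ih_RG h3 O h3O hπ (N' * q) q hq3)
    haveI := ssm_gi_isScalarTower (ssm_alh_E_le L h3 (ssm_fh_hF9 h3) (N' * q) q) (ssm_fh_V1 h3 O h3O hπ N' q)
    haveI := ssm_gi_isScalarTower (ssm_alh_E_le L h3 (ssm_fh_hF9 h3) (N' * q) q) (s36ih_VV h3 O h3O hπ N' q hq3 hqN')
    haveI := ssm_gi_isScalarTower (ssm_alh_E_beta_le L h3 (ssm_fh_hF9 h3) (N' * q) q hq3)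
      (s36ih_RU h3 O h3O hπ N' q hq3 hqN')
    haveI := ssm_gi_isScalarTower (ssm_alh_E_beta_le L h3 (ssm_fh_hF9 h3) (N' * q) q hq3)
      (s36ih_RG h3 O h3O hπ (N' * q) q hq3)
    haveI := ssm_gi_isScalarTower_base (ssm_alh_E_le L h3 (ssm_fh_hF9 h3) (N' * q) q)
    haveI := ssm_gi_isScalarTower_base (ssm_alh_E_beta_le L h3 (ssm_fh_hF9 h3) (N' * q) q hq3)
    haveI := s36at_hes_fin1 (L := L) h3 N' q hq3
    haveI := s36at_hes_fin2 (L := L) h3 N' q hq3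
    haveI : Algebra.IsSeparable ↥(hs_E L h3 (N' * q)) ↥(hs_E L h3 (N' * q * q)) := ssm_gi_isSeparable
    haveI : Algebra.IsSeparable ↥((hs_E L h3 (N' * q)).map (qExpandAlgHomC L q))
      ↥(hs_E L h3 (N' * q * q)) := ssm_gi_isSeparable
    s36at_Tower (K1 := ↥(hs_E L h3 (N' * q)))
      (K2 := ↥((hs_E L h3 (N' * q)).map (qExpandAlgHomC L q))) O (π : L) q
      (s36ih_VA h3 O h3O hπ (N' * q) q) (s36ih_VB h3 O h3O hπ N' q hq3 hqN') VC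
      (s36at_hes_piF h3 O h3O hπ N' q) (s36at_hes_piV h3 O h3O hπ N' q hq3 hqN')
      (s36ih_wRF h3 O h3O hπ N' q hq3 hqN' (s36at_hes_piF h3 O h3O hπ N' q))
      (s36ih_wR h3 O h3O hπ N' q hq3 hqN' (s36at_hes_piV h3 O h3O hπ N' q hq3 hqN'))
      z (s36ih_W2 h3 N' q hq3 hqN' z) (s36ih_x2 h3 N' q hq3)
      (s36ih_W2 h3 N' q hq3 hqN' (s36ih_x2 h3 N' q hq3)) (s36ih_x1V h3 O h3O hπ N' q hq3 hqN')
      (s36ih_wR h3 O h3O hπ N' q hq3 hqN' (s36ih_x1V h3 O h3O hπ N' q hq3 hqN')) := by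
  letI := ssm_gi_algebra (ssm_alh_E_le L h3 (ssm_fh_hF9 h3) (N' * q) q)
  letI := ssm_gi_algebraV (ssm_alh_E_le L h3 (ssm_fh_hF9 h3) (N' * q) q) (ssm_fh_V1 h3 O h3O hπ N' q)
  letI := ssm_gi_algebraV (ssm_alh_E_le L h3 (ssm_fh_hF9 h3) (N' * q) q) (s36ih_VV h3 O h3O hπ N' q hq3 hqN')
  letI := ssm_gi_algebra (ssm_alh_E_beta_le L h3 (ssm_fh_hF9 h3) (N' * q) q hq3)
  letI := ssm_gi_algebraV (ssm_alh_E_beta_le L h3 (ssm_fh_hF9 h3) (N' * q) q hq3) (s36ih_RU h3 O h3O hπ N' q hq3 hqN')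
  letI := ssm_gi_algebraV (ssm_alh_E_beta_le L h3 (ssm_fh_hF9 h3) (N' * q) q hq3) (s36ih_RG h3 O h3O hπ (N' * q) q hq3)
  haveI := ssm_gi_isScalarTower (ssm_alh_E_le L h3 (ssm_fh_hF9 h3) (N' * q) q) (ssm_fh_V1 h3 O h3O hπ N' q)
  haveI := ssm_gi_isScalarTower (ssm_alh_E_le L h3 (ssm_fh_hF9 h3) (N' * q) q) (s36ih_VV h3 O h3O hπ N' q hq3 hqN')
  haveI := ssm_gi_isScalarTower (ssm_alh_E_beta_le L h3 (ssm_fh_hF9 h3) (N' * q) q hq3)
    (s36ih_RU h3 O h3O hπ N' q hq3 hqN')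
  haveI := ssm_gi_isScalarTower (ssm_alh_E_beta_le L h3 (ssm_fh_hF9 h3) (N' * q) q hq3)
    (s36ih_RG h3 O h3O hπ (N' * q) q hq3)
  haveI := ssm_gi_isScalarTower_base (ssm_alh_E_le L h3 (ssm_fh_hF9 h3) (N' * q) q)
  haveI := ssm_gi_isScalarTower_base (ssm_alh_E_beta_le L h3 (ssm_fh_hF9 h3) (N' * q) q hq3)
  haveI := s36at_hes_fin1 (L := L) h3 N' q hq3
  haveI := s36at_hes_fin2 (L := L) h3 N' q hq3
  haveI : Algebra.IsSeparable ↥(hs_E L h3 (N' * q)) ↥(hs_E L h3 (N' * q * q)) := ssm_gi_isSeparable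
  haveI : Algebra.IsSeparable ↥((hs_E L h3 (N' * q)).map (qExpandAlgHomC L q))
    ↥(hs_E L h3 (N' * q * q)) := ssm_gi_isSeparable
  have DB := s36ih_hes_dataB h3 O h3O hπ N' q hq3 hqN'
  have S1 : s36at_Side ↥(hs_E L h3 (N' * q)) ↥(ssm_fh_V1 h3 O h3O hπ N' q)
      ↥(s36ih_VV h3 O h3O hπ N' q hq3 hqN') q (s36ih_VA h3 O h3O hπ (N' * q) q) (s36ih_VB h3 O h3O hπ N' q hq3 hqN') VC
      (s36at_hes_piF h3 O h3O hπ N' q) (s36at_hes_piV h3 O h3O hπ N' q hq3 hqN') z (s36ih_x2 h3 N' q hq3)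
      (s36ih_x1V h3 O h3O hπ N' q hq3 hqN') :=
    s36at_side_of_third hq.out.two_le (s36at_hes_piF_irr h3 O h3O hπ N' q)
      (s36at_hes_piV_irr h3 O h3O hπ N' q hq3 hqN') T3 DB hN
  have S2 := s36ih_hes_side2 h3 O h3O hπ N' q hq3 hqN' S1 T3.only
  have hW2c : ∀ c : L, s36ih_W2 h3 N' q hq3 hqN' (algebraMap L ↥(hs_E L h3 (N' * q * q)) c) =
      algebraMap L ↥(hs_E L h3 (N' * q * q)) c :=
    fun c => (s36w_h_WE L h3 (ssm_fh_hF9 h3) N' q hq.out hq3 hqN').commutes c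
  have hF : algebraMap ↥(ssm_fh_V1 h3 O h3O hπ N' q) ↥(hs_E L h3 (N' * q * q)) (s36at_hes_piF h3 O h3O hπ N' q) =
      algebraMap L ↥(hs_E L h3 (N' * q * q)) (π : L) := rfl
  have hG : algebraMap ↥(s36ih_RG h3 O h3O hπ (N' * q) q hq3) ↥(hs_E L h3 (N' * q * q))
      (s36ih_wR h3 O h3O hπ N' q hq3 hqN' (s36at_hes_piV h3 O h3O hπ N' q hq3 hqN')) =
      algebraMap L ↥(hs_E L h3 (N' * q * q)) (π : L) := by
    unfold s36at_hes_piV
    rw [RingEquiv.apply_symm_apply]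
    rfl
  refine
    { side1 := S1
      side2 := S2
      hVA := s36at_hes_hVA h3 O h3O hπ N' q
      hVB := s36at_hes_hVB h3 O h3O hπ N' q hq3 hqN'
      hπF := hF
      hπV := ?_
      hπU := ?_
      hπG := hG }
  · apply (s36ih_W2 h3 N' q hq3 hqN').injective
    rw [hW2c, ← s36ih_algebraMap_wR h3 O h3O hπ N' q hq3 hqN']
    exact hG
  · rw [s36ih_algebraMap_wRF h3 O h3O hπ N' q hq3 hqN', hF, hW2c]

/-- **`s36h_CoreAt` for the Hesse tower** from the third-valuation package over `VF`, the norm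
hypothesis `hN` and the seam [GLUE-MAIN].  The (root) properties are helper24's closed terms. -/
theorem s36at_hes_coreAt {VC : ValuationSubring ↥(hs_E L h3 (N' * q * q))}
    {z : ↥(hs_E L h3 (N' * q * q))}
    (T3 :
      letI := ssm_gi_algebra (ssm_alh_E_le L h3 (ssm_fh_hF9 h3) (N' * q) q)
      letI := ssm_gi_algebraV (ssm_alh_E_le L h3 (ssm_fh_hF9 h3) (N' * q) q) (ssm_fh_V1 h3 O h3O hπ N' q)
      letI := ssm_gi_algebraV (ssm_alh_E_le L h3 (ssm_fh_hF9 h3) (N' * q) q) (s36ih_VV h3 O h3O hπ N' q hq3 hqN')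
      letI := ssm_gi_algebra (ssm_alh_E_beta_le L h3 (ssm_fh_hF9 h3) (N' * q) q hq3)
      letI := ssm_gi_algebraV (ssm_alh_E_beta_le L h3 (ssm_fh_hF9 h3) (N' * q) q hq3) (s36ih_RU h3 O h3O hπ N' q hq3 hqN')
      letI := ssm_gi_algebraV (ssm_alh_E_beta_le L h3 (ssm_fh_hF9 h3) (N' * q) q hq3) (s36ih_RG h3 O h3O hπ (N' * q) q hq3)
      haveI := ssm_gi_isScalarTower (ssm_alh_E_le L h3 (ssm_fh_hF9 h3) (N' * q) q) (ssm_fh_V1 h3 O h3O hπ N' q)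
      haveI := ssm_gi_isScalarTower (ssm_alh_E_le L h3 (ssm_fh_hF9 h3) (N' * q) q) (s36ih_VV h3 O h3O hπ N' q hq3 hqN')
      haveI := ssm_gi_isScalarTower (ssm_alh_E_beta_le L h3 (ssm_fh_hF9 h3) (N' * q) q hq3)
        (s36ih_RU h3 O h3O hπ N' q hq3 hqN')
      haveI := ssm_gi_isScalarTower (ssm_alh_E_beta_le L h3 (ssm_fh_hF9 h3) (N' * q) q hq3)
        (s36ih_RG h3 O h3O hπ (N' * q) q hq3)
      haveI := ssm_gi_isScalarTower_base (ssm_alh_E_le L h3 (ssm_fh_hF9 h3) (N' * q) q)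
      haveI := ssm_gi_isScalarTower_base (ssm_alh_E_beta_le L h3 (ssm_fh_hF9 h3) (N' * q) q hq3)
      haveI := s36at_hes_fin1 (L := L) h3 N' q hq3
      haveI := s36at_hes_fin2 (L := L) h3 N' q hq3
      haveI : Algebra.IsSeparable ↥(hs_E L h3 (N' * q)) ↥(hs_E L h3 (N' * q * q)) := ssm_gi_isSeparable
      haveI : Algebra.IsSeparable ↥((hs_E L h3 (N' * q)).map (qExpandAlgHomC L q))
        ↥(hs_E L h3 (N' * q * q)) := ssm_gi_isSeparable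
      s36t3_Third ↥(hs_E L h3 (N' * q)) ↥(ssm_fh_V1 h3 O h3O hπ N' q) q (s36at_hes_piF h3 O h3O hπ N' q) z
        (s36ih_VA h3 O h3O hπ (N' * q) q) VC)
    (hN :
      letI := ssm_gi_algebra (ssm_alh_E_le L h3 (ssm_fh_hF9 h3) (N' * q) q)
      ∃ c w : ↥(ssm_fh_V1 h3 O h3O hπ N' q), c ∉ maximalIdeal ↥(ssm_fh_V1 h3 O h3O hπ N' q) ^ 2 ∧
        Algebra.norm ↥(hs_E L h3 (N' * q)) z * (w : ↥(hs_E L h3 (N' * q))) =
          (c : ↥(hs_E L h3 (N' * q))))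
    (m : ℕ) (hm : 1 ≤ m) (hqm : Nat.Coprime q m) (hmO : (m : ResidueField O) ≠ 0) (Eg : ℕ)
    (hglue : s36c_Glue O (s36ih_VA h3 O h3O hπ (N' * q) q) (s36ih_VB h3 O h3O hπ N' q hq3 hqN') VC
      (s36c_normIncl (ssm_alh_E_le L h3 (ssm_fh_hF9 h3) (N' * q) q))
      (s36c_normIncl (ssm_alh_E_beta_le L h3 (ssm_fh_hF9 h3) (N' * q) q hq3)) q m Eg
      (fun (v : AlgebraicCurve.Place L ↥(hs_E L h3 (N' * q * q))) => v.ord)) :
    s36h_CoreAt (L := L) h3 N' q hq3 m (s36c_exp q Eg) := by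
  letI := ssm_gi_algebra (ssm_alh_E_le L h3 (ssm_fh_hF9 h3) (N' * q) q)
  letI := ssm_gi_algebraV (ssm_alh_E_le L h3 (ssm_fh_hF9 h3) (N' * q) q) (ssm_fh_V1 h3 O h3O hπ N' q)
  letI := ssm_gi_algebraV (ssm_alh_E_le L h3 (ssm_fh_hF9 h3) (N' * q) q) (s36ih_VV h3 O h3O hπ N' q hq3 hqN')
  letI := ssm_gi_algebra (ssm_alh_E_beta_le L h3 (ssm_fh_hF9 h3) (N' * q) q hq3)
  letI := ssm_gi_algebraV (ssm_alh_E_beta_le L h3 (ssm_fh_hF9 h3) (N' * q) q hq3) (s36ih_RU h3 O h3O hπ N' q hq3 hqN')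
  letI := ssm_gi_algebraV (ssm_alh_E_beta_le L h3 (ssm_fh_hF9 h3) (N' * q) q hq3) (s36ih_RG h3 O h3O hπ (N' * q) q hq3)
  haveI := ssm_gi_isScalarTower (ssm_alh_E_le L h3 (ssm_fh_hF9 h3) (N' * q) q) (ssm_fh_V1 h3 O h3O hπ N' q)
  haveI := ssm_gi_isScalarTower (ssm_alh_E_le L h3 (ssm_fh_hF9 h3) (N' * q) q) (s36ih_VV h3 O h3O hπ N' q hq3 hqN')
  haveI := ssm_gi_isScalarTower (ssm_alh_E_beta_le L h3 (ssm_fh_hF9 h3) (N' * q) q hq3)
    (s36ih_RU h3 O h3O hπ N' q hq3 hqN')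
  haveI := ssm_gi_isScalarTower (ssm_alh_E_beta_le L h3 (ssm_fh_hF9 h3) (N' * q) q hq3)
    (s36ih_RG h3 O h3O hπ (N' * q) q hq3)
  haveI := ssm_gi_isScalarTower_base (ssm_alh_E_le L h3 (ssm_fh_hF9 h3) (N' * q) q)
  haveI := ssm_gi_isScalarTower_base (ssm_alh_E_beta_le L h3 (ssm_fh_hF9 h3) (N' * q) q hq3)
  haveI := s36at_hes_fin1 (L := L) h3 N' q hq3
  haveI := s36at_hes_fin2 (L := L) h3 N' q hq3
  haveI : Algebra.IsSeparable ↥(hs_E L h3 (N' * q)) ↥(hs_E L h3 (N' * q * q)) := ssm_gi_isSeparable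
  haveI : Algebra.IsSeparable ↥((hs_E L h3 (N' * q)).map (qExpandAlgHomC L q))
    ↥(hs_E L h3 (N' * q * q)) := ssm_gi_isSeparable
  have T := s36at_hes_tower h3 O h3O hπ N' q hq3 hqN' T3 hN
  have hVC : ∀ y : ↥(hs_E L h3 (N' * q)),
      IntermediateField.inclusion (s36w_h_E_le1 L h3 (ssm_fh_hF9 h3) N' q) y ∈ VC ↔ y ∈ ssm_fh_V1 h3 O h3O hπ N' q := by
    intro y
    have h := T3.overC y
    rw [ssm_gi_mem_range] at h
    exact h
  have hres : ∀ a ∈ VC, ∃ r : ↥(hs_E L h3 (N' * q)),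
      a - IntermediateField.inclusion (s36w_h_E_le1 L h3 (ssm_fh_hF9 h3) N' q) r ∈ VC.nonunits := by
    intro a ha
    obtain ⟨r, hr⟩ := T3.resC a ha
    exact ⟨(r : ↥(hs_E L h3 (N' * q))), hr⟩
  exact s36at_coreAt_hes h3 N' q hq3 (s36at_hes_fin1 (L := L) h3 N' q hq3)
    (s36at_hes_fin2 (L := L) h3 N' q hq3) (ssm_fh_V1 h3 O h3O hπ N' q) (s36ih_VV h3 O h3O hπ N' q hq3 hqN')
    (s36ih_RU h3 O h3O hπ N' q hq3 hqN') (s36ih_RG h3 O h3O hπ (N' * q) q hq3) T m hm hqm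
    (s36rt_hes_VC h3 O h3O hπ N' q m hmO VC hVC hres) (s36rt_hes_VA h3 O h3O hπ N' q m hmO)
    (s36rt_hes_VB h3 O h3O hπ N' q hq3 hqN' m hmO) Eg hglue

/-- **`s36h_CoreAt` for the Hesse tower over an unramified base** (`q = π · unit` in `O`), with
`z = x(X^{q q}) - x`, `x = μ - 1`, and helper8's `s36th_hes_hN` plugged: the only inputs left are the
third-valuation package over `VF` for this `z` and the seam [GLUE-MAIN]. -/
theorem s36at_hes_coreAt_unram (u : ↥O) (hu : IsUnit u) (hqu : ((q : ℕ) : ↥O) = π * u)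
    {VC : ValuationSubring ↥(hs_E L h3 (N' * q * q))}
    (T3 :
      letI := ssm_gi_algebra (ssm_alh_E_le L h3 (ssm_fh_hF9 h3) (N' * q) q)
      letI := ssm_gi_algebraV (ssm_alh_E_le L h3 (ssm_fh_hF9 h3) (N' * q) q) (ssm_fh_V1 h3 O h3O hπ N' q)
      letI := ssm_gi_algebraV (ssm_alh_E_le L h3 (ssm_fh_hF9 h3) (N' * q) q) (s36ih_VV h3 O h3O hπ N' q hq3 hqN')
      letI := ssm_gi_algebra (ssm_alh_E_beta_le L h3 (ssm_fh_hF9 h3) (N' * q) q hq3)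
      letI := ssm_gi_algebraV (ssm_alh_E_beta_le L h3 (ssm_fh_hF9 h3) (N' * q) q hq3) (s36ih_RU h3 O h3O hπ N' q hq3 hqN')
      letI := ssm_gi_algebraV (ssm_alh_E_beta_le L h3 (ssm_fh_hF9 h3) (N' * q) q hq3) (s36ih_RG h3 O h3O hπ (N' * q) q hq3)
      haveI := ssm_gi_isScalarTower (ssm_alh_E_le L h3 (ssm_fh_hF9 h3) (N' * q) q) (ssm_fh_V1 h3 O h3O hπ N' q)
      haveI := ssm_gi_isScalarTower (ssm_alh_E_le L h3 (ssm_fh_hF9 h3) (N' * q) q) (s36ih_VV h3 O h3O hπ N' q hq3 hqN')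
      haveI := ssm_gi_isScalarTower (ssm_alh_E_beta_le L h3 (ssm_fh_hF9 h3) (N' * q) q hq3)
        (s36ih_RU h3 O h3O hπ N' q hq3 hqN')
      haveI := ssm_gi_isScalarTower (ssm_alh_E_beta_le L h3 (ssm_fh_hF9 h3) (N' * q) q hq3)
        (s36ih_RG h3 O h3O hπ (N' * q) q hq3)
      haveI := ssm_gi_isScalarTower_base (ssm_alh_E_le L h3 (ssm_fh_hF9 h3) (N' * q) q)
      haveI := ssm_gi_isScalarTower_base (ssm_alh_E_beta_le L h3 (ssm_fh_hF9 h3) (N' * q) q hq3)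
      haveI := s36at_hes_fin1 (L := L) h3 N' q hq3
      haveI := s36at_hes_fin2 (L := L) h3 N' q hq3
      haveI : Algebra.IsSeparable ↥(hs_E L h3 (N' * q)) ↥(hs_E L h3 (N' * q * q)) := ssm_gi_isSeparable
      haveI : Algebra.IsSeparable ↥((hs_E L h3 (N' * q)).map (qExpandAlgHomC L q))
        ↥(hs_E L h3 (N' * q * q)) := ssm_gi_isSeparable
      s36t3_Third ↥(hs_E L h3 (N' * q)) ↥(ssm_fh_V1 h3 O h3O hπ N' q) q (s36at_hes_piF h3 O h3O hπ N' q)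
        (s36th_h_x2 h3 (ssm_fh_hF9 h3) N' q hq3 hqN' -
          algebraMap ↥(hs_E L h3 (N' * q)) ↥(hs_E L h3 (N' * q * q))
            (IntermediateField.inclusion (ssm_alh_E_le L h3 (ssm_fh_hF9 h3) N' q)
              (hs_muE h3 N' - 1)))
        (s36ih_VA h3 O h3O hπ (N' * q) q) VC)
    (m : ℕ) (hm : 1 ≤ m) (hqm : Nat.Coprime q m) (hmO : (m : ResidueField O) ≠ 0) (Eg : ℕ)
    (hglue : s36c_Glue O (s36ih_VA h3 O h3O hπ (N' * q) q) (s36ih_VB h3 O h3O hπ N' q hq3 hqN') VC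
      (s36c_normIncl (ssm_alh_E_le L h3 (ssm_fh_hF9 h3) (N' * q) q))
      (s36c_normIncl (ssm_alh_E_beta_le L h3 (ssm_fh_hF9 h3) (N' * q) q hq3)) q m Eg
      (fun (v : AlgebraicCurve.Place L ↥(hs_E L h3 (N' * q * q))) => v.ord)) :
    s36h_CoreAt (L := L) h3 N' q hq3 m (s36c_exp q Eg) :=
  s36at_hes_coreAt h3 O h3O hπ N' q hq3 hqN' T3 (s36th_hes_hN h3 (ssm_fh_hF9 h3) O h3O hπ N' q hq3 hqN' u hu hqu)
    m hm hqm hmO Eg hglue

end Hes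

end Fermat.Agent.S36
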