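/-
Project S36 (Carayol), cell [L2]-FINAL (helper11), Hesse twin, THE PLUG (TOWER-H) of helper12's
Hesse burn-down (H5): helper1's `s36asmh_Tower` as a closed function of helper8's package
`T : s36t3h_Third h3 O h3O hπ N' q hq3 VC` over an unramified base (`q = π u`, `u ∈ Oˣ`).
Prefix `s36at_hes_`.

* `s36at_hes_tower_of_third` : `T ⟹ s36asmh_Tower … VC πF πV (wRF πF) (wR πV) z (W₂ z) x₂ (W₂ x₂)
  x₁ (wR x₁)` with `z = s36t3h_z` (`hN` = helper8's `s36t3h_hN`);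
* `s36at_hes_towerPack`      : `∃ VC, T ∧ ∃ πF … rA, s36asmh_Tower …` (twin of helper26's
  `s36i_leg_towerPack'`);
* `s36at_hes_towerPack_q`    : the same at `π := q`, `u := 1` ([NF2H-CTX]).
-/
import Mathlib
import Fermat.Agent.S36.ATower.Hes
import Fermat.Agent.S36.Model.AsmHesTower
import Fermat.Agent.S36.Model.ThreeHesN

set_option autoImplicit false
set_option linter.unusedSectionVars false
set_option linter.unusedVariables false
set_option linter.style.haveILetI false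
set_option maxHeartbeats 1000000

noncomputable section

open ModularCurve IntermediateField IsLocalRing
open Fermat.Agent.JT3 Fermat.Agent.SS

namespace Fermat.Agent.S36

section HesPack

variable {L : Type*} [Field L] [CharZero L] [Algebra L (AlgebraicClosure ℚ)] (h3 : (3 : L) ≠ 0)
  (O : ValuationSubring L) [IsDiscreteValuationRing O] (h3O : IsUnit (3 : O)) {π : O}
  (hπ : Irreducible π)
variable (N' q : ℕ) [NeZero N'] [NeZero q] [hq : Fact q.Prime] [CharP (ResidueField O) q]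
  (hq3 : ¬ 3 ∣ q) (hqN' : ¬ q ∣ N')

/-- **(TOWER-H)**: helper1's `s36asmh_Tower` from helper8's third-valuation package over an
unramified base. -/
theorem s36at_hes_tower_of_third (u : ↥O) (hu : IsUnit u) (hqu : ((q : ℕ) : ↥O) = π * u)
    {VC : ValuationSubring ↥(hs_E L h3 (N' * q * q))}
    (T : s36t3h_Third h3 O h3O hπ N' q hq3 VC) :
    s36asmh_Tower h3 O h3O hπ N' q hq3 hqN' VC
      (s36at_hes_piF h3 O h3O hπ N' q) (s36at_hes_piV h3 O h3O hπ N' q hq3 hqN')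
      (s36ih_wRF h3 O h3O hπ N' q hq3 hqN' (s36at_hes_piF h3 O h3O hπ N' q))
      (s36ih_wR h3 O h3O hπ N' q hq3 hqN' (s36at_hes_piV h3 O h3O hπ N' q hq3 hqN'))
      (s36t3h_z h3 N' q hq3) (s36ih_W2 h3 N' q hq3 hqN' (s36t3h_z h3 N' q hq3))
      (s36ih_x2 h3 N' q hq3) (s36ih_W2 h3 N' q hq3 hqN' (s36ih_x2 h3 N' q hq3))
      (s36ih_x1V h3 O h3O hπ N' q hq3 hqN')
      (s36ih_wR h3 O h3O hπ N' q hq3 hqN' (s36ih_x1V h3 O h3O hπ N' q hq3 hqN')) := by
  unfold s36t3h_Third at T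
  exact s36at_hes_tower h3 O h3O hπ N' q hq3 hqN' T
    (s36t3h_hN h3 O h3O hπ N' q hq3 hqN' u hu hqu)

/-- **the tower pack**, Hesse: the third valuation subring with its package and the tower. -/
theorem s36at_hes_towerPack (u : ↥O) (hu : IsUnit u) (hqu : ((q : ℕ) : ↥O) = π * u) :
    ∃ VC : ValuationSubring ↥(hs_E L h3 (N' * q * q)),
      s36t3h_Third h3 O h3O hπ N' q hq3 VC ∧
      ∃ (πF : ↥(ssm_fh_V1 h3 O h3O hπ N' q)) (πV : ↥(s36ih_VV h3 O h3O hπ N' q hq3 hqN'))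
        (πU : ↥(s36ih_RU h3 O h3O hπ N' q hq3 hqN'))
        (πG : ↥(s36ih_RG h3 O h3O hπ (N' * q) q hq3))
        (zC zC' tB tA : ↥(hs_E L h3 (N' * q * q)))
        (rB : ↥(s36ih_VV h3 O h3O hπ N' q hq3 hqN'))
        (rA : ↥(s36ih_RG h3 O h3O hπ (N' * q) q hq3)),
        s36asmh_Tower h3 O h3O hπ N' q hq3 hqN' VC πF πV πU πG zC zC' tB tA rB rA := by
  obtain ⟨VC, T⟩ := s36t3h_third h3 O h3O hπ N' q hq3 hqN' u hu hqu
  exact ⟨VC, T, _, _, _, _, _, _, _, _, _, _,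
    s36at_hes_tower_of_third h3 O h3O hπ N' q hq3 hqN' u hu hqu T⟩

end HesPack

section HesPackQ

variable {L : Type*} [Field L] [CharZero L] [Algebra L (AlgebraicClosure ℚ)] (h3 : (3 : L) ≠ 0)
  (O : ValuationSubring L) [IsDiscreteValuationRing O] (h3O : IsUnit (3 : O))
variable (N' q : ℕ) [NeZero N'] [NeZero q] [hq : Fact q.Prime] [CharP (ResidueField O) q]
  (hq3 : ¬ 3 ∣ q) (hqN' : ¬ q ∣ N')

/-- **(TOWER-H) at `π = q`** ([NF2H-CTX]). -/
theorem s36at_hes_tower_of_third_q (hπ : Irreducible ((q : ℕ) : ↥O))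
    {VC : ValuationSubring ↥(hs_E L h3 (N' * q * q))}
    (T : s36t3h_Third h3 O h3O hπ N' q hq3 VC) :
    s36asmh_Tower h3 O h3O hπ N' q hq3 hqN' VC
      (s36at_hes_piF h3 O h3O hπ N' q) (s36at_hes_piV h3 O h3O hπ N' q hq3 hqN')
      (s36ih_wRF h3 O h3O hπ N' q hq3 hqN' (s36at_hes_piF h3 O h3O hπ N' q))
      (s36ih_wR h3 O h3O hπ N' q hq3 hqN' (s36at_hes_piV h3 O h3O hπ N' q hq3 hqN'))
      (s36t3h_z h3 N' q hq3) (s36ih_W2 h3 N' q hq3 hqN' (s36t3h_z h3 N' q hq3))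
      (s36ih_x2 h3 N' q hq3) (s36ih_W2 h3 N' q hq3 hqN' (s36ih_x2 h3 N' q hq3))
      (s36ih_x1V h3 O h3O hπ N' q hq3 hqN')
      (s36ih_wR h3 O h3O hπ N' q hq3 hqN' (s36ih_x1V h3 O h3O hπ N' q hq3 hqN')) :=
  s36at_hes_tower_of_third h3 O h3O hπ N' q hq3 hqN' 1 isUnit_one (mul_one _).symm T

/-- **the tower pack at `π = q`**, Hesse ([NF2H-CTX]). -/
theorem s36at_hes_towerPack_q (hπ : Irreducible ((q : ℕ) : ↥O)) :
    ∃ VC : ValuationSubring ↥(hs_E L h3 (N' * q * q)),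
      s36t3h_Third h3 O h3O hπ N' q hq3 VC ∧
      ∃ (πF : ↥(ssm_fh_V1 h3 O h3O hπ N' q)) (πV : ↥(s36ih_VV h3 O h3O hπ N' q hq3 hqN'))
        (πU : ↥(s36ih_RU h3 O h3O hπ N' q hq3 hqN'))
        (πG : ↥(s36ih_RG h3 O h3O hπ (N' * q) q hq3))
        (zC zC' tB tA : ↥(hs_E L h3 (N' * q * q)))
        (rB : ↥(s36ih_VV h3 O h3O hπ N' q hq3 hqN'))
        (rA : ↥(s36ih_RG h3 O h3O hπ (N' * q) q hq3)),
        s36asmh_Tower h3 O h3O hπ N' q hq3 hqN' VC πF πV πU πG zC zC' tB tA rB rA :=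
  s36at_hes_towerPack h3 O h3O hπ N' q hq3 hqN' 1 isUnit_one (mul_one _).symm

end HesPackQ

end Fermat.Agent.S36
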